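/-
helper97 (TW): the Prelude place `padicPlace q` of `ℚ̄` lies over `q`, and every element of the
local Galois group maps into its decomposition group (Prelude) — packaged for `primeLocalPlace`.
-/
import Mathlib
import Fermat.Prelude.Def_GaloisRep_CompletionBridge
import Fermat.Prelude.Def_ExtEndgame_ProductionDatum

set_option autoImplicit false

open scoped NNReal

namespace Fermat.Agent.TW.OrdLocal.PadicPlace97

local notation "Qb" => AlgebraicClosure ℚ

/-- The place of `ℚ̄` induced by the embedding into `PadicAlgCl q` lies over `q`. -/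
theorem padicPlace_liesOverPrime (q : ℕ) [Fact q.Prime] : (padicPlace q).LiesOverPrime q := by
  have hq0 : (q : Qb) ≠ 0 := Nat.cast_ne_zero.mpr (Fact.out : q.Prime).ne_zero
  show (q : Qb) ∈ (padicPlace q).nonunits
  rw [ValuationSubring.mem_nonunits_iff]
  by_contra hcon
  rw [not_lt] at hcon
  have h1 : (padicPlace q).valuation ((q : Qb)⁻¹) ≤ 1 := by
    rw [map_inv₀]
    exact inv_le_one_of_one_le₀ hcon
  have h2 : ((q : Qb)⁻¹) ∈ padicPlace q := ((padicPlace q).valuation_le_one_iff _).mp h1
  rw [mem_padicPlace_iff, map_inv₀, map_natCast, nnnorm_inv] at h2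
  have h3 : ‖(q : PadicAlgCl q)‖₊ = 1 / (q : ℝ≥0) := PadicAlgCl.valuation_p q
  rw [h3, one_div, inv_inv] at h2
  have h4 : (1 : ℝ≥0) < (q : ℝ≥0) := by
    exact_mod_cast (Fact.out : q.Prime).one_lt
  exact absurd h2 (not_le.mpr h4)

/-- Same for the Prelude's `primeLocalPlace`. -/
theorem primeLocalPlace_liesOverPrime (q : Nat.Primes) :
    (ExtCitation.primeLocalPlace q).LiesOverPrime (q : ℕ) := by
  have : Fact (q : ℕ).Prime := ⟨q.2⟩
  exact padicPlace_liesOverPrime (q : ℕ)

/-- The image of the local Galois group lies in the decomposition group of `primeLocalPlace`. -/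
theorem primeLocalToGlobal_mem_decompositionSubgroup (q : Nat.Primes)
    (τ : ExtCitation.primeLocalGaloisGroup q) :
    ExtCitation.primeLocalToGlobal q τ ∈ (ExtCitation.primeLocalPlace q).decompositionSubgroup ℚ := by
  have : Fact (q : ℕ).Prime := ⟨q.2⟩
  exact localGaloisToGlobal_mem_decompositionSubgroup (q : ℕ) τ

end Fermat.Agent.TW.OrdLocal.PadicPlace97
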