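/-
Program TW (S56), WP6 (local at `p`, strict ordinary), helper71.

Abstract Kummer theory for twisted cocycles.  `Ω/K` a Galois extension with group `G`, `ζ ∈ Ω` a
primitive `p`-th root of unity on which `G` acts through `χ : G → ZMod p` (`g ζ = ζ ^ χ(g)`), and
`φ : Kˣ →* Multiplicative T` a homomorphism (to an abelian group killed by `p`) whose kernel
consists of `p`-th powers.  Then the group of LEVEL (= continuous) `χ`-twisted 1-cocycles
`c : G → ZMod p`, `c (g h) = c g + χ g * c h`, has at most `|T| * p` elements: Hilbert 90 gives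
`β` with `g β = ζ ^ c(g) β`, `β ^ p ∈ K`, and `c ↦ φ (β ^ p)` is additive with kernel inside the
coboundaries `g ↦ (χ g - 1) a`.

The same with values in a finite `ZMod p`-module `X`: at most `(|T| * p) ^ dim X` elements.
-/
import Mathlib
import Fermat.Agent.PT.BR.InfGalois13

set_option autoImplicit false

namespace Fermat.Agent.TW.OrdLocal.KummerAbs71

open IntermediateField

variable {K Ω : Type*} [Field K] [Field Ω] [Algebra K Ω]

/-- A function on the Galois group is a *level function* if it is right-invariant under the fixing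
subgroup of a finite subextension. -/
def IsLevelFun {X : Type*} (f : (Ω ≃ₐ[K] Ω) → X) : Prop :=
  ∃ E : IntermediateField K Ω, FiniteDimensional K E ∧
    ∀ g s, s ∈ E.fixingSubgroup → f (g * s) = f g

theorem IsLevelFun.comp {X Y : Type*} {f : (Ω ≃ₐ[K] Ω) → X} (hf : IsLevelFun f) (φ : X → Y) :
    IsLevelFun (φ ∘ f) := by
  obtain ⟨E, hE, h⟩ := hf
  exact ⟨E, hE, fun g s hs => by simp only [Function.comp_apply, h g s hs]⟩

theorem IsLevelFun.map₂ {X Y W : Type*} {f : (Ω ≃ₐ[K] Ω) → X} {f' : (Ω ≃ₐ[K] Ω) → Y}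
    (hf : IsLevelFun f) (hf' : IsLevelFun f') (φ : X → Y → W) :
    IsLevelFun (fun g => φ (f g) (f' g)) := by
  obtain ⟨E, hE, h⟩ := hf
  obtain ⟨E', hE', h'⟩ := hf'
  refine ⟨E ⊔ E', IntermediateField.finiteDimensional_sup E E', fun g s hs => ?_⟩
  show φ (f (g * s)) (f' (g * s)) = φ (f g) (f' g)
  rw [h g s (IntermediateField.fixingSubgroup_antitone le_sup_left hs),
    h' g s (IntermediateField.fixingSubgroup_antitone le_sup_right hs)]

theorem isLevelFun_const {X : Type*} (x : X) : IsLevelFun (fun _ : (Ω ≃ₐ[K] Ω) => x) :=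
  ⟨⊥, inferInstance, fun _ _ _ => rfl⟩

variable (p : ℕ) [hp : Fact p.Prime]

/-- `χ`-twisted 1-cocycles with values in a `ZMod p`-module. -/
def IsTwCocycle {X : Type*} [AddCommGroup X] [Module (ZMod p) X] (χ : (Ω ≃ₐ[K] Ω) → ZMod p)
    (c : (Ω ≃ₐ[K] Ω) → X) : Prop :=
  ∀ g h, c (g * h) = c g + χ g • c h

/-! ### Powers of a `p`-th root of unity indexed by `ZMod p` -/

section Root

variable {M : Type*} [Monoid M]

theorem pow_val_add {z : M} (hz : z ^ p = 1) (a b : ZMod p) :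
    z ^ (a + b).val = z ^ a.val * z ^ b.val := by
  have : NeZero p := ⟨hp.out.ne_zero⟩
  rw [← pow_add, ZMod.val_add, ← Nat.mod_add_div (a.val + b.val) p, pow_add, pow_mul, hz, one_pow,
    mul_one, Nat.mod_add_div]

theorem pow_val_mul {z : M} (hz : z ^ p = 1) (a b : ZMod p) :
    z ^ (a * b).val = (z ^ a.val) ^ b.val := by
  have : NeZero p := ⟨hp.out.ne_zero⟩
  rw [← pow_mul, ZMod.val_mul, ← Nat.mod_add_div (a.val * b.val) p, pow_add, pow_mul, hz, one_pow,
    mul_one, Nat.mod_add_div]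

theorem pow_val_natCast {z : M} (hz : z ^ p = 1) (n : ℕ) : z ^ ((n : ZMod p)).val = z ^ n := by
  rw [ZMod.val_natCast]
  conv_rhs => rw [← Nat.mod_add_div n p, pow_add, pow_mul, hz, one_pow, mul_one]

end Root

/-! ### Hilbert 90 for twisted level cocycles -/

section Kummer

variable [IsGalois K Ω] (ζ : Ωˣ) (hζ : IsPrimitiveRoot ζ p)
  (χ : (Ω ≃ₐ[K] Ω) → ZMod p) (hχ : ∀ g : Ω ≃ₐ[K] Ω, g • ζ = ζ ^ (χ g).val)

include hζ hχ

/-- **Kummer elements**: a twisted level cocycle `c` is of the form `g β = ζ ^ c(g) β`. -/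
theorem exists_kummer (c : (Ω ≃ₐ[K] Ω) → ZMod p) (hc : IsTwCocycle p χ c) (hl : IsLevelFun c) :
    ∃ β : Ωˣ, ∀ g : Ω ≃ₐ[K] Ω, g • β = ζ ^ (c g).val * β := by
  obtain ⟨E, hE, hinv⟩ := hl
  have hζp : ζ ^ p = 1 := hζ.pow_eq_one
  -- enlarge the level so that it contains `ζ`
  let E' : IntermediateField K Ω := E ⊔ K⟮(ζ : Ω)⟯
  have hfd : FiniteDimensional K K⟮(ζ : Ω)⟯ :=
    IntermediateField.adjoin.finiteDimensional (Algebra.IsIntegral.isIntegral _)
  have hE' : FiniteDimensional K E' := IntermediateField.finiteDimensional_sup E _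
  have hζE' : (ζ : Ω) ∈ E' :=
    (le_sup_right : K⟮(ζ : Ω)⟯ ≤ E') (IntermediateField.mem_adjoin_simple_self K _)
  let cm : (Ω ≃ₐ[K] Ω) → Ωˣ := fun g => ζ ^ (c g).val
  obtain ⟨β, hβ⟩ := Fermat.Agent.PT.BR.InfGalois13.hilbert90_level (⊤ : Subgroup (Ω ≃ₐ[K] Ω)) E' cm
    (fun g s hs => by
      show ζ ^ (c (g * s)).val = ζ ^ (c g).val
      rw [hinv g s (IntermediateField.fixingSubgroup_antitone le_sup_left hs)])
    (fun g => by
      show ((ζ ^ (c g).val : Ωˣ) : Ω) ∈ E'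
      rw [Units.val_pow_eq_pow_val]
      exact pow_mem hζE' _)
    (fun n _ n' _ => by
      show ζ ^ (c (n * n')).val = n • ζ ^ (c n').val * ζ ^ (c n).val
      rw [hc n n', smul_pow', hχ n, smul_eq_mul, pow_val_add p hζp, pow_val_mul p hζp, mul_comm])
  refine ⟨β, fun g => ?_⟩
  have h := hβ g (Subgroup.mem_top g)
  have h' : ζ ^ (c g).val = g • β / β := h
  rw [h', div_mul_cancel]

omit hζ hχ hp in
/-- The `p`-th power of a Kummer element lies in `K`. -/
theorem exists_algebraMap_eq_pow {ζ : Ωˣ} (hζp : ζ ^ p = 1) {c : (Ω ≃ₐ[K] Ω) → ZMod p} {β : Ωˣ}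
    (hβ : ∀ g : Ω ≃ₐ[K] Ω, g • β = ζ ^ (c g).val * β) :
    ∃ x : Kˣ, algebraMap K Ω (x : K) = ((β ^ p : Ωˣ) : Ω) := by
  have hfix : ∀ g : Ω ≃ₐ[K] Ω, g ((β ^ p : Ωˣ) : Ω) = ((β ^ p : Ωˣ) : Ω) := by
    intro g
    have h1 : g • (β ^ p) = β ^ p := by
      rw [smul_pow', hβ g, mul_pow, ← pow_mul, mul_comm (c g).val p, pow_mul, hζp, one_pow, one_mul]
    have h2 := congrArg (fun u : Ωˣ => (u : Ω)) h1
    simpa [AlgEquiv.smul_units_def] using h2
  obtain ⟨x, hx⟩ := (InfiniteGalois.mem_range_algebraMap_iff_fixed (k := K) (K := Ω) _).2 hfix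
  have hx0 : x ≠ 0 := by
    rintro rfl
    rw [map_zero] at hx
    exact (β ^ p).ne_zero hx.symm
  exact ⟨Units.mk0 x hx0, hx⟩

omit hζ hχ hp in
/-- An element of `Ωˣ` fixed by the Galois group comes from `Kˣ`. -/
theorem exists_units_algebraMap_eq {u : Ωˣ} (hu : ∀ g : Ω ≃ₐ[K] Ω, g • u = u) :
    ∃ y : Kˣ, algebraMap K Ω (y : K) = (u : Ω) := by
  have hfix : ∀ g : Ω ≃ₐ[K] Ω, g (u : Ω) = (u : Ω) := by
    intro g
    have h2 := congrArg (fun u : Ωˣ => (u : Ω)) (hu g)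
    simpa [AlgEquiv.smul_units_def] using h2
  obtain ⟨x, hx⟩ := (InfiniteGalois.mem_range_algebraMap_iff_fixed (k := K) (K := Ω) _).2 hfix
  have hx0 : x ≠ 0 := by
    rintro rfl
    rw [map_zero] at hx
    exact u.ne_zero hx.symm
  exact ⟨Units.mk0 x hx0, hx⟩

variable {T : Type*} [AddCommGroup T] (hT : ∀ t : T, p • t = 0)
  (φ : Kˣ →* Multiplicative T)

omit hζ hχ in
include hT in
/-- Compatibility of Kummer classes with addition of cocycles (and hence independence of the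
choices). -/
theorem map_kummer_add {ζ : Ωˣ} (hζp : ζ ^ p = 1) {c c₁ c₂ : (Ω ≃ₐ[K] Ω) → ZMod p}
    (hadd : ∀ g, c g = c₁ g + c₂ g) {β β₁ β₂ : Ωˣ}
    (hβ : ∀ g : Ω ≃ₐ[K] Ω, g • β = ζ ^ (c g).val * β)
    (hβ₁ : ∀ g : Ω ≃ₐ[K] Ω, g • β₁ = ζ ^ (c₁ g).val * β₁)
    (hβ₂ : ∀ g : Ω ≃ₐ[K] Ω, g • β₂ = ζ ^ (c₂ g).val * β₂) {x x₁ x₂ : Kˣ}
    (hx : algebraMap K Ω (x : K) = ((β ^ p : Ωˣ) : Ω))
    (hx₁ : algebraMap K Ω (x₁ : K) = ((β₁ ^ p : Ωˣ) : Ω))
    (hx₂ : algebraMap K Ω (x₂ : K) = ((β₂ ^ p : Ωˣ) : Ω)) :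
    φ x = φ x₁ * φ x₂ := by
  have hu : ∀ g : Ω ≃ₐ[K] Ω, g • (β * (β₁ * β₂)⁻¹) = β * (β₁ * β₂)⁻¹ := by
    intro g
    rw [smul_mul', smul_inv', smul_mul', hβ g, hβ₁ g, hβ₂ g, hadd g, pow_val_add p hζp]
    rw [mul_inv_rev, mul_inv_rev, mul_inv_rev, mul_inv_rev]
    have hcomm : ∀ a b c d e f : Ωˣ, a * b * e * (d⁻¹ * b⁻¹ * (c⁻¹ * a⁻¹)) = e * (d⁻¹ * c⁻¹) := by
      intro a b c d e f
      have : a * b * e * (d⁻¹ * b⁻¹ * (c⁻¹ * a⁻¹)) = (a * a⁻¹) * (b * b⁻¹) * (e * (d⁻¹ * c⁻¹)) := by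
        simp only [mul_comm, mul_left_comm, mul_assoc]
      rw [this, mul_inv_cancel, mul_inv_cancel, one_mul, one_mul]
    exact hcomm _ _ _ _ _ 1
  obtain ⟨y, hy⟩ := exists_units_algebraMap_eq hu
  have hxy : x = y ^ p * (x₁ * x₂) := by
    apply Units.ext
    apply (algebraMap K Ω).injective
    rw [Units.val_mul, Units.val_mul, Units.val_pow_eq_pow_val, map_mul, map_mul, map_pow, hx, hx₁,
      hx₂, hy]
    rw [← Units.val_pow_eq_pow_val, ← Units.val_mul, ← Units.val_mul]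
    congr 1
    rw [mul_pow, inv_pow, mul_pow]
    have hcomm : ∀ a b c : Ωˣ, a * (b * c)⁻¹ * (b * c) = a := by
      intro a b c
      rw [inv_mul_cancel_right]
    exact (hcomm _ _ _).symm
  rw [hxy, map_mul, map_pow, map_mul]
  have h1 : φ y ^ p = 1 := by
    apply Multiplicative.toAdd.injective
    rw [toAdd_pow, toAdd_one]
    exact hT _
  rw [h1, one_mul]

/-- The additive group of level `χ`-twisted cocycles with values in `X`. -/
def levelCocycles (X : Type*) [AddCommGroup X] [Module (ZMod p) X]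
    (χ : (Ω ≃ₐ[K] Ω) → ZMod p) : AddSubgroup ((Ω ≃ₐ[K] Ω) → X) where
  carrier := {c | IsTwCocycle p χ c ∧ IsLevelFun c}
  add_mem' := by
    rintro c c' ⟨h1, h2⟩ ⟨h1', h2'⟩
    refine ⟨fun g h => ?_, h2.map₂ h2' (· + ·)⟩
    simp only [Pi.add_apply, h1 g h, h1' g h, smul_add]
    abel
  zero_mem' := ⟨fun g h => by simp, isLevelFun_const 0⟩
  neg_mem' := by
    rintro c ⟨h1, h2⟩
    refine ⟨fun g h => ?_, h2.comp (fun x => -x)⟩
    simp only [Pi.neg_apply, h1 g h, smul_neg]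
    abel

omit hζ hχ [IsGalois K Ω] in
theorem mem_levelCocycles_iff {X : Type*} [AddCommGroup X] [Module (ZMod p) X]
    {χ : (Ω ≃ₐ[K] Ω) → ZMod p} {c : (Ω ≃ₐ[K] Ω) → X} :
    c ∈ levelCocycles p X χ ↔ IsTwCocycle p χ c ∧ IsLevelFun c := Iff.rfl

/-- A chosen Kummer element of a level cocycle. -/
noncomputable def kummerElt (c : levelCocycles (K := K) (Ω := Ω) p (ZMod p) χ) : Ωˣ :=
  (exists_kummer p ζ hζ χ hχ c.1 c.2.1 c.2.2).choose

theorem kummerElt_spec (c : levelCocycles (K := K) (Ω := Ω) p (ZMod p) χ) (g : Ω ≃ₐ[K] Ω) :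
    g • kummerElt p ζ hζ χ hχ c = ζ ^ (c.1 g).val * kummerElt p ζ hζ χ hχ c :=
  (exists_kummer p ζ hζ χ hχ c.1 c.2.1 c.2.2).choose_spec g

/-- The `p`-th power of the chosen Kummer element, in `Kˣ`. -/
noncomputable def kummerPow (c : levelCocycles (K := K) (Ω := Ω) p (ZMod p) χ) : Kˣ :=
  (exists_algebraMap_eq_pow p hζ.pow_eq_one (kummerElt_spec p ζ hζ χ hχ c)).choose

theorem kummerPow_spec (c : levelCocycles (K := K) (Ω := Ω) p (ZMod p) χ) :
    algebraMap K Ω (kummerPow p ζ hζ χ hχ c : K) = ((kummerElt p ζ hζ χ hχ c ^ p : Ωˣ) : Ω) :=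
  (exists_algebraMap_eq_pow p hζ.pow_eq_one (kummerElt_spec p ζ hζ χ hχ c)).choose_spec

/-- **The Kummer class map** `c ↦ φ (β_c ^ p)`, an additive homomorphism. -/
noncomputable def kummerClass : levelCocycles (K := K) (Ω := Ω) p (ZMod p) χ →+ T :=
  AddMonoidHom.mk' (fun c => Multiplicative.toAdd (φ (kummerPow p ζ hζ χ hχ c))) (by
    intro c c'
    have h := map_kummer_add p hT φ hζ.pow_eq_one (c := (c + c').1) (c₁ := c.1) (c₂ := c'.1)
      (fun g => rfl) (kummerElt_spec p ζ hζ χ hχ (c + c')) (kummerElt_spec p ζ hζ χ hχ c)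
      (kummerElt_spec p ζ hζ χ hχ c') (kummerPow_spec p ζ hζ χ hχ (c + c'))
      (kummerPow_spec p ζ hζ χ hχ c) (kummerPow_spec p ζ hζ χ hχ c')
    rw [h, toAdd_mul])

/-- **The kernel of the Kummer class map consists of coboundaries.** -/
theorem exists_eq_of_kummerClass_eq_zero
    (hφ : ∀ x : Kˣ, φ x = 1 → ∃ y : Kˣ, y ^ p = x)
    (c : levelCocycles (K := K) (Ω := Ω) p (ZMod p) χ)
    (h : kummerClass p ζ hζ χ hχ hT φ c = 0) :
    ∃ a : ZMod p, ∀ g, c.1 g = (χ g - 1) * a := by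
  have : NeZero p := ⟨hp.out.ne_zero⟩
  have hζp : ζ ^ p = 1 := hζ.pow_eq_one
  set β := kummerElt p ζ hζ χ hχ c with hβdef
  have hβ : ∀ g : Ω ≃ₐ[K] Ω, g • β = ζ ^ (c.1 g).val * β := kummerElt_spec p ζ hζ χ hχ c
  have hx : algebraMap K Ω (kummerPow p ζ hζ χ hχ c : K) = ((β ^ p : Ωˣ) : Ω) :=
    kummerPow_spec p ζ hζ χ hχ c
  have h1 : φ (kummerPow p ζ hζ χ hχ c) = 1 := by
    apply Multiplicative.toAdd.injective
    exact h
  obtain ⟨y, hy⟩ := hφ _ h1
  -- `β / y` is a `p`-th root of unity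
  let y' : Ωˣ := Units.map (algebraMap K Ω).toMonoidHom y
  have hy' : y' ^ p = β ^ p := by
    apply Units.ext
    rw [← hx, ← hy]
    simp [y']
  have hfixy : ∀ g : Ω ≃ₐ[K] Ω, g • y' = y' := by
    intro g
    apply Units.ext
    simp [y', AlgEquiv.smul_units_def]
  have hroot : (β * y'⁻¹) ^ p = 1 := by
    rw [mul_pow, inv_pow, hy', mul_inv_cancel]
  have hζ' : IsPrimitiveRoot (ζ : Ω) p := IsPrimitiveRoot.coe_units_iff.2 hζ
  have hroot' : ((β * y'⁻¹ : Ωˣ) : Ω) ^ p = 1 := by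
    rw [← Units.val_pow_eq_pow_val, hroot, Units.val_one]
  obtain ⟨i, -, hi'⟩ := hζ'.eq_pow_of_pow_eq_one hroot'
  have hi : ζ ^ i = β * y'⁻¹ := by
    apply Units.ext
    rw [Units.val_pow_eq_pow_val, hi']
  have hβi : β = ζ ^ i * y' := by
    rw [hi, inv_mul_cancel_right]
  refine ⟨(i : ZMod p), fun g => ?_⟩
  have h2 := hβ g
  rw [hβi, smul_mul', hfixy g, smul_pow', hχ g, ← mul_assoc] at h2
  have h3 : (ζ ^ (χ g).val) ^ i = ζ ^ (c.1 g).val * ζ ^ i := mul_right_cancel h2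
  have hz : (ζ ^ (χ g).val) ^ p = 1 := by
    rw [← pow_mul, mul_comm, pow_mul, hζp, one_pow]
  rw [← pow_val_natCast p hz i, ← pow_val_natCast p hζp i, ← pow_val_mul p hζp,
    ← pow_val_add p hζp] at h3
  have h4 : (χ g * (i : ZMod p)).val = (c.1 g + (i : ZMod p)).val := by
    have h5 := hζ.pow_inj (ZMod.val_lt _) (ZMod.val_lt _) h3
    exact h5
  have h6 : χ g * (i : ZMod p) = c.1 g + (i : ZMod p) := ZMod.val_injective p h4
  linear_combination -h6

end Kummer

/-! ### Counting -/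

/-- A group with a homomorphism to a finite group whose kernel lies in a finite set is finite, of
cardinality at most the product. -/
theorem card_le_of_addMonoidHom {A T : Type*} [AddCommGroup A] [AddCommGroup T] [Finite T]
    (f : A →+ T) (S : Set A) (hS : S.Finite) (hker : ∀ a, f a = 0 → a ∈ S) :
    Finite A ∧ Nat.card A ≤ Nat.card T * Nat.card S := by
  classical
  have : Finite S := hS.to_subtype
  let σ : T → A := fun t => if h : ∃ a, f a = t then h.choose else 0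
  have hσ : ∀ a, f (σ (f a)) = f a := by
    intro a
    have h : ∃ a', f a' = f a := ⟨a, rfl⟩
    simp only [σ, dif_pos h]
    exact h.choose_spec
  let F : A → T × S := fun a => (f a, ⟨a - σ (f a), hker _ (by rw [map_sub, hσ, sub_self])⟩)
  have hF : Function.Injective F := by
    intro a a' h
    have h1 : f a = f a' := congrArg Prod.fst h
    have h2 : a - σ (f a) = a' - σ (f a') := congrArg (fun x => (x.2 : A)) h
    rw [h1] at h2
    exact sub_left_injective h2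
  refine ⟨Finite.of_injective F hF, ?_⟩
  calc Nat.card A ≤ Nat.card (T × S) := Nat.card_le_card_of_injective F hF
    _ = Nat.card T * Nat.card S := Nat.card_prod T S

section Count

variable [IsGalois K Ω] (ζ : Ωˣ) (hζ : IsPrimitiveRoot ζ p)
  (χ : (Ω ≃ₐ[K] Ω) → ZMod p) (hχ : ∀ g : Ω ≃ₐ[K] Ω, g • ζ = ζ ^ (χ g).val)
  {T : Type*} [AddCommGroup T] [Finite T] (hT : ∀ t : T, p • t = 0)
  (φ : Kˣ →* Multiplicative T) (hφ : ∀ x : Kˣ, φ x = 1 → ∃ y : Kˣ, y ^ p = x)

include hζ hχ hT hφ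

/-- **Scalar count**: at most `|T| * p` level `χ`-twisted cocycles with values in `ZMod p`. -/
theorem card_levelCocycles_le :
    Finite (levelCocycles (K := K) (Ω := Ω) p (ZMod p) χ) ∧
      Nat.card (levelCocycles (K := K) (Ω := Ω) p (ZMod p) χ) ≤ Nat.card T * p := by
  have : NeZero p := ⟨hp.out.ne_zero⟩
  let cob : ZMod p → ((Ω ≃ₐ[K] Ω) → ZMod p) := fun a g => (χ g - 1) * a
  let S : Set (levelCocycles (K := K) (Ω := Ω) p (ZMod p) χ) :=
    (fun c => (c : (Ω ≃ₐ[K] Ω) → ZMod p)) ⁻¹' Set.range cob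
  have hS : S.Finite :=
    Set.Finite.preimage (Set.injOn_of_injective Subtype.coe_injective) (Set.finite_range cob)
  have hcard : Nat.card S ≤ p := by
    have : Finite (Set.range cob) := (Set.finite_range cob).to_subtype
    have h1 : Nat.card S ≤ Nat.card (Set.range cob) :=
      Nat.card_le_card_of_injective
        (fun c : S => (⟨(c.1 : (Ω ≃ₐ[K] Ω) → ZMod p), c.2⟩ : Set.range cob))
        (fun c c' h => Subtype.ext (Subtype.ext
          (congrArg (fun x : Set.range cob => (x : (Ω ≃ₐ[K] Ω) → ZMod p)) h)))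
    have h2 : Nat.card (Set.range cob) ≤ Nat.card (ZMod p) := Finite.card_range_le cob
    rw [Nat.card_zmod] at h2
    exact h1.trans h2
  obtain ⟨hfin, hle⟩ := card_le_of_addMonoidHom (kummerClass p ζ hζ χ hχ hT φ) S hS (fun c hc => by
    obtain ⟨a, ha⟩ := exists_eq_of_kummerClass_eq_zero p ζ hζ χ hχ hT φ hφ c hc
    exact ⟨a, funext fun g => (ha g).symm⟩)
  exact ⟨hfin, hle.trans (Nat.mul_le_mul_left _ hcard)⟩

/-- **Vector count**: at most `(|T| * p) ^ dim X` level `χ`-twisted cocycles with values in a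
finite `ZMod p`-module `X`. -/
theorem card_levelCocycles_module_le (X : Type*) [AddCommGroup X] [Module (ZMod p) X]
    [Finite X] :
    Finite (levelCocycles (K := K) (Ω := Ω) p X χ) ∧
      Nat.card (levelCocycles (K := K) (Ω := Ω) p X χ) ≤
        (Nat.card T * p) ^ Module.finrank (ZMod p) X := by
  have : Module.Finite (ZMod p) X := Module.Finite.of_finite
  obtain ⟨hfin, hle⟩ := card_levelCocycles_le p ζ hζ χ hχ hT φ hφ
  let b := Module.finBasis (ZMod p) X
  let F : levelCocycles (K := K) (Ω := Ω) p X χ →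
      (Fin (Module.finrank (ZMod p) X) → levelCocycles (K := K) (Ω := Ω) p (ZMod p) χ) :=
    fun c i => ⟨fun g => b.repr (c.1 g) i, by
      refine ⟨fun g h => ?_, c.2.2.comp (fun x => b.repr x i)⟩
      show b.repr (c.1 (g * h)) i = b.repr (c.1 g) i + χ g • b.repr (c.1 h) i
      rw [c.2.1 g h, map_add, map_smul, Finsupp.add_apply, Finsupp.smul_apply]⟩
  have hF : Function.Injective F := by
    intro c c' h
    apply Subtype.ext
    funext g
    apply b.repr.injective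
    ext i
    have h1 := congrArg (fun f => (f i).1 g) h
    exact h1
  refine ⟨Finite.of_injective F hF, ?_⟩
  calc Nat.card (levelCocycles (K := K) (Ω := Ω) p X χ)
      ≤ Nat.card (Fin (Module.finrank (ZMod p) X) →
          levelCocycles (K := K) (Ω := Ω) p (ZMod p) χ) := Nat.card_le_card_of_injective F hF
    _ = Nat.card (levelCocycles (K := K) (Ω := Ω) p (ZMod p) χ) ^
          Module.finrank (ZMod p) X := by
        rw [Nat.card_fun, Nat.card_fin]
    _ ≤ (Nat.card T * p) ^ Module.finrank (ZMod p) X := Nat.pow_le_pow_left hle _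

end Count

end Fermat.Agent.TW.OrdLocal.KummerAbs71
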