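/-
Program TW (S56), WP6 (local at `p`, strict ordinary), helper71.

`p`-th powers in `ℚ_p^×` for odd `p`: there is a group homomorphism
`ℚ_[p]ˣ →* Multiplicative (ZMod p × ZMod p)` whose kernel consists of `p`-th powers
(valuation mod `p`, Fermat quotient of the unit part, Hensel's lemma).
Hence `ℚ_p^× / (ℚ_p^×)^p` has order at most `p ^ 2`.  Mathlib only.
-/
import Mathlib

set_option autoImplicit false

namespace Fermat.Agent.TW.OrdLocal.PadicPow71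

open Polynomial

/-! ### A binomial congruence -/

/-- `(1 + p y) ^ p = 1 + p ^ 2 y + p ^ 3 z` for an odd prime `p`, in any commutative ring. -/
theorem exists_one_add_mul_pow_eq {R : Type*} [CommRing R] {p : ℕ} (hp : p.Prime) (hp2 : p ≠ 2)
    (y : R) : ∃ z : R, (1 + (p : R) * y) ^ p = 1 + (p : R) ^ 2 * y + (p : R) ^ 3 * z := by
  have h3 : 3 ≤ p := by
    have := hp.two_le
    omega
  obtain ⟨n, rfl⟩ : ∃ n, p = n + 2 := ⟨p - 2, by omega⟩
  have hsum : (1 + ((n + 2 : ℕ) : R) * y) ^ (n + 2) =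
      ∑ m ∈ Finset.range (n + 1), (((n + 2 : ℕ) : R) * y) ^ (m + 2) * ((n + 2).choose (m + 2) : R)
        + ((n + 2 : ℕ) : R) ^ 2 * y + 1 := by
    rw [add_comm (1 : R), add_pow, Finset.sum_range_succ', Finset.sum_range_succ']
    simp only [one_pow, mul_one, pow_zero, Nat.choose_zero_right, Nat.cast_one, zero_add, pow_one,
      Nat.choose_one_right]
    ring
  have hdvd : ∀ m ∈ Finset.range (n + 1),
      ((n + 2 : ℕ) : R) ^ 3 ∣
        (((n + 2 : ℕ) : R) * y) ^ (m + 2) * ((n + 2).choose (m + 2) : R) := by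
    intro m hm
    rw [Finset.mem_range] at hm
    by_cases hmn : m = n
    · subst hmn
      have hm1 : 1 ≤ m := by omega
      obtain ⟨j, rfl⟩ : ∃ j, m = j + 1 := ⟨m - 1, by omega⟩
      refine Dvd.dvd.mul_right ?_ _
      rw [mul_pow]
      refine Dvd.dvd.mul_right ?_ _
      exact pow_dvd_pow _ (by omega)
    · have hlt : m + 2 < n + 2 := by omega
      have hc : (n + 2) ∣ (n + 2).choose (m + 2) := hp.dvd_choose_self (by omega) hlt
      obtain ⟨c, hc⟩ := hc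
      rw [hc, mul_pow, Nat.cast_mul, pow_add]
      refine ⟨((n + 2 : ℕ) : R) ^ m * y ^ (m + 2) * (c : R), ?_⟩
      ring
  obtain ⟨z, hz⟩ := Finset.dvd_sum hdvd
  refine ⟨z, ?_⟩
  rw [hsum, hz]
  ring

/-! ### Hensel: `1 + p ^ 2 ℤ_p` consists of `p`-th powers -/

variable (p : ℕ) [hp : Fact p.Prime]

theorem exists_pow_eq_one_add (hp2 : p ≠ 2) (s : ℤ_[p]) :
    ∃ a : ℤ_[p], a ^ p = 1 + (p : ℤ_[p]) ^ 2 * s := by
  have hp0 : (p : ℤ_[p]) ≠ 0 := Nat.cast_ne_zero.2 hp.out.ne_zero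
  set w : ℤ_[p] := 1 + (p : ℤ_[p]) ^ 2 * s with hw
  set a₀ : ℤ_[p] := 1 + (p : ℤ_[p]) * s with ha₀
  let F : Polynomial ℤ_[p] := X ^ p - C w
  have hF : ∀ x : ℤ_[p], F.aeval x = x ^ p - w := by
    intro x
    simp [F]
  have hF' : ∀ x : ℤ_[p], F.derivative.aeval x = (p : ℤ_[p]) * x ^ (p - 1) := by
    intro x
    simp [F, derivative_X_pow]
  obtain ⟨z, hz⟩ := exists_one_add_mul_pow_eq hp.out hp2 s
  have hnorm_a₀ : ‖a₀‖ = 1 := by
    have h1 : ‖(p : ℤ_[p]) * s‖ < 1 := by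
      rw [PadicInt.norm_lt_one_iff_dvd]
      exact Dvd.intro _ rfl
    have h2 : ‖(1 : ℤ_[p])‖ = 1 := norm_one
    rw [ha₀]
    have := PadicInt.norm_add_eq_max_of_ne (p := p) (q := (1 : ℤ_[p])) (r := (p : ℤ_[p]) * s)
      (by rw [h2]; exact (ne_of_lt h1).symm)
    rw [this, h2, max_eq_left h1.le]
  have hval : F.aeval a₀ = (p : ℤ_[p]) ^ 3 * z := by
    rw [hF, ha₀, hz, hw]
    ring
  have hder : ‖F.derivative.aeval a₀‖ = (p : ℝ)⁻¹ := by
    rw [hF', norm_mul, norm_pow, hnorm_a₀, one_pow, mul_one, PadicInt.norm_p]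
  have hpR : (1 : ℝ) < p := by exact_mod_cast hp.out.one_lt
  have hnorm : ‖F.aeval a₀‖ < ‖F.derivative.aeval a₀‖ ^ 2 := by
    rw [hval, hder, norm_mul, norm_pow, PadicInt.norm_p]
    have hz1 : ‖z‖ ≤ 1 := PadicInt.norm_le_one z
    have hpos : (0 : ℝ) < (p : ℝ)⁻¹ := inv_pos.2 (by linarith)
    have hlt1 : (p : ℝ)⁻¹ < 1 := inv_lt_one_of_one_lt₀ hpR
    calc ((p : ℝ)⁻¹) ^ 3 * ‖z‖ ≤ ((p : ℝ)⁻¹) ^ 3 * 1 :=
          mul_le_mul_of_nonneg_left hz1 (pow_nonneg hpos.le 3)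
      _ = ((p : ℝ)⁻¹) ^ 2 * (p : ℝ)⁻¹ := by ring
      _ < ((p : ℝ)⁻¹) ^ 2 * 1 := mul_lt_mul_of_pos_left hlt1 (pow_pos hpos 2)
      _ = ((p : ℝ)⁻¹) ^ 2 := mul_one _
  obtain ⟨a, ha, -⟩ := hensels_lemma hnorm
  refine ⟨a, ?_⟩
  rw [hF] at ha
  exact sub_eq_zero.1 ha

/-! ### No nontrivial `p`-th roots of unity in `ℚ_p` (`p` odd) -/

theorem padicInt_eq_one_of_pow_eq_one (hp2 : p ≠ 2) (x : ℤ_[p]) (hx : x ^ p = 1) : x = 1 := by
  have hp0 : (p : ℤ_[p]) ≠ 0 := Nat.cast_ne_zero.2 hp.out.ne_zero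
  -- `x ≡ 1 mod p`
  have h1 : PadicInt.toZMod x = 1 := by
    have h := congrArg (PadicInt.toZMod (p := p)) hx
    rw [map_pow, map_one, ZMod.pow_card] at h
    exact h
  have h2 : x - 1 ∈ RingHom.ker (PadicInt.toZMod (p := p)) := by
    rw [RingHom.mem_ker, map_sub, h1, map_one, sub_self]
  rw [PadicInt.ker_toZMod, PadicInt.maximalIdeal_eq_span_p, Ideal.mem_span_singleton] at h2
  obtain ⟨y, hy⟩ := h2
  have hxy : x = 1 + (p : ℤ_[p]) * y := by rw [← hy]; ring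
  -- `x ≡ 1 mod p ^ 2`
  obtain ⟨z, hz⟩ := exists_one_add_mul_pow_eq hp.out hp2 y
  rw [← hxy, hx] at hz
  have hyz : y = -(p : ℤ_[p]) * z := by
    have h3 : (p : ℤ_[p]) ^ 2 * (y + (p : ℤ_[p]) * z) = 0 := by linear_combination -hz
    rcases mul_eq_zero.1 h3 with h4 | h4
    · exact absurd ((pow_eq_zero_iff (two_ne_zero)).1 h4) hp0
    · linear_combination h4
  -- Hensel uniqueness for `X ^ p - 1` at `a = 1`
  let F : Polynomial ℤ_[p] := X ^ p - C 1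
  have hF : ∀ t : ℤ_[p], F.aeval t = t ^ p - 1 := by
    intro t
    simp [F]
  have hF' : F.derivative.aeval (1 : ℤ_[p]) = (p : ℤ_[p]) := by
    simp [F, derivative_X_pow]
  have hpR : (1 : ℝ) < p := by exact_mod_cast hp.out.one_lt
  have hpos : (0 : ℝ) < (p : ℝ)⁻¹ := inv_pos.2 (by linarith)
  have hnorm : ‖F.aeval (1 : ℤ_[p])‖ < ‖F.derivative.aeval (1 : ℤ_[p])‖ ^ 2 := by
    rw [hF, hF', one_pow, sub_self, norm_zero, PadicInt.norm_p]
    exact pow_pos hpos 2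
  obtain ⟨w, -, -, -, huniq⟩ := hensels_lemma hnorm
  have hone : (1 : ℤ_[p]) = w := huniq 1 (by rw [hF, one_pow, sub_self]) (by
    rw [sub_self, norm_zero, hF', PadicInt.norm_p]; exact hpos)
  have hxw : x = w := huniq x (by rw [hF, hx, sub_self]) (by
    rw [hF', PadicInt.norm_p, hxy, hyz]
    have h5 : (1 + (p : ℤ_[p]) * (-(p : ℤ_[p]) * z) - 1) = (p : ℤ_[p]) ^ 2 * (-z) := by ring
    rw [h5, norm_mul, norm_pow, PadicInt.norm_p, norm_neg]
    have hz1 : ‖z‖ ≤ 1 := PadicInt.norm_le_one z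
    have hlt1 : (p : ℝ)⁻¹ < 1 := inv_lt_one_of_one_lt₀ hpR
    calc ((p : ℝ)⁻¹) ^ 2 * ‖z‖ ≤ ((p : ℝ)⁻¹) ^ 2 * 1 :=
          mul_le_mul_of_nonneg_left hz1 (pow_nonneg hpos.le 2)
      _ = (p : ℝ)⁻¹ * (p : ℝ)⁻¹ := by ring
      _ < (p : ℝ)⁻¹ * 1 := mul_lt_mul_of_pos_left hlt1 hpos
      _ = (p : ℝ)⁻¹ := mul_one _)
  rw [hxw, ← hone]

theorem padic_eq_one_of_pow_eq_one (hp2 : p ≠ 2) (x : ℚ_[p]) (hx : x ^ p = 1) : x = 1 := by
  have hnorm : ‖x‖ = 1 := by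
    have h := congrArg norm hx
    rw [norm_pow, norm_one] at h
    exact (pow_eq_one_iff_of_nonneg (norm_nonneg x) hp.out.ne_zero).1 h
  let x' : ℤ_[p] := ⟨x, hnorm.le⟩
  have hx' : ((x' : ℤ_[p]) : ℚ_[p]) = x := rfl
  have h1 : x' = 1 :=
    padicInt_eq_one_of_pow_eq_one p hp2 x' (Subtype.ext (by
      rw [PadicInt.coe_pow, hx', hx, PadicInt.coe_one]))
  rw [← hx', h1, PadicInt.coe_one]

/-! ### The Fermat quotient on `ℤ_pˣ` -/

theorem exists_pow_pred_eq (u : ℤ_[p]ˣ) :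
    ∃ t : ℤ_[p], (u : ℤ_[p]) ^ (p - 1) = 1 + (p : ℤ_[p]) * t := by
  have hu : PadicInt.toZMod (u : ℤ_[p]) ≠ 0 := by
    intro h
    have h1 : (u : ℤ_[p]) ∈ RingHom.ker (PadicInt.toZMod (p := p)) := h
    rw [PadicInt.ker_toZMod] at h1
    exact (IsLocalRing.mem_maximalIdeal _).1 h1 u.isUnit
  have h1 : PadicInt.toZMod ((u : ℤ_[p]) ^ (p - 1) - 1) = 0 := by
    rw [map_sub, map_pow, map_one, ZMod.pow_card_sub_one_eq_one hu, sub_self]
  have h2 : (u : ℤ_[p]) ^ (p - 1) - 1 ∈ RingHom.ker (PadicInt.toZMod (p := p)) := h1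
  rw [PadicInt.ker_toZMod, PadicInt.maximalIdeal_eq_span_p, Ideal.mem_span_singleton] at h2
  obtain ⟨t, ht⟩ := h2
  exact ⟨t, by rw [← ht]; ring⟩

/-- The auxiliary `t` with `u ^ (p - 1) = 1 + p t`. -/
noncomputable def fqAux (u : ℤ_[p]ˣ) : ℤ_[p] := (exists_pow_pred_eq p u).choose

theorem fqAux_spec (u : ℤ_[p]ˣ) : (u : ℤ_[p]) ^ (p - 1) = 1 + (p : ℤ_[p]) * fqAux p u :=
  (exists_pow_pred_eq p u).choose_spec

theorem fqAux_mul (u v : ℤ_[p]ˣ) :
    fqAux p (u * v) = fqAux p u + fqAux p v + (p : ℤ_[p]) * (fqAux p u * fqAux p v) := by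
  have hp0 : (p : ℤ_[p]) ≠ 0 := Nat.cast_ne_zero.2 hp.out.ne_zero
  have h := fqAux_spec p (u * v)
  rw [Units.val_mul, mul_pow, fqAux_spec p u, fqAux_spec p v] at h
  apply mul_left_cancel₀ hp0
  linear_combination -h

/-- The Fermat quotient `ℤ_pˣ → 𝔽_p`, `u ↦ (u ^ (p - 1) - 1) / p mod p`, as a homomorphism. -/
noncomputable def fermatQuot : ℤ_[p]ˣ →* Multiplicative (ZMod p) where
  toFun u := Multiplicative.ofAdd (PadicInt.toZMod (fqAux p u))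
  map_one' := by
    have hp0 : (p : ℤ_[p]) ≠ 0 := Nat.cast_ne_zero.2 hp.out.ne_zero
    have h := fqAux_spec p 1
    have h0 : fqAux p 1 = 0 := by
      apply mul_left_cancel₀ hp0
      rw [Units.val_one, one_pow] at h
      linear_combination -h
    rw [h0, map_zero]
    rfl
  map_mul' u v := by
    have h : PadicInt.toZMod (fqAux p (u * v)) =
        PadicInt.toZMod (fqAux p u) + PadicInt.toZMod (fqAux p v) := by
      rw [fqAux_mul, RingHom.map_add, RingHom.map_add, RingHom.map_mul, map_natCast,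
        ZMod.natCast_self, zero_mul, add_zero]
    rw [h]
    rfl

theorem exists_pow_eq_of_fermatQuot_eq_one (hp2 : p ≠ 2) (u : ℤ_[p]ˣ)
    (h : fermatQuot p u = 1) : ∃ b : ℤ_[p]ˣ, b ^ p = u := by
  have h1 : PadicInt.toZMod (fqAux p u) = 0 := by
    have := congrArg Multiplicative.toAdd h
    exact this
  have h2 : fqAux p u ∈ RingHom.ker (PadicInt.toZMod (p := p)) := h1
  rw [PadicInt.ker_toZMod, PadicInt.maximalIdeal_eq_span_p, Ideal.mem_span_singleton] at h2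
  obtain ⟨s, hs⟩ := h2
  obtain ⟨a, ha⟩ := exists_pow_eq_one_add p hp2 s
  have hpow : a ^ p = (u : ℤ_[p]) ^ (p - 1) := by
    rw [ha, fqAux_spec p u, hs]
    ring
  have hp1 : 1 ≤ p := hp.out.one_lt.le
  -- `a` is a unit
  have hau : IsUnit a := by
    have : IsUnit (a ^ p) := by
      rw [hpow]
      exact (u.isUnit).pow _
    exact (isUnit_pow_iff hp.out.ne_zero).1 this
  obtain ⟨a', rfl⟩ := hau
  refine ⟨u * a'⁻¹, ?_⟩
  apply Units.ext
  have h3 : ((a' ^ p : ℤ_[p]ˣ) : ℤ_[p]) = ((u ^ (p - 1) : ℤ_[p]ˣ) : ℤ_[p]) := by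
    simpa using hpow
  have h4 : a' ^ p = u ^ (p - 1) := Units.ext h3
  rw [mul_pow, inv_pow, h4]
  have : u ^ p = u ^ (p - 1) * u := by
    rw [← pow_succ, Nat.sub_add_cancel hp1]
  rw [this]
  simp

/-! ### The unit part and valuation on `ℚ_pˣ` -/

theorem norm_mul_zpow_valuation (x : ℚ_[p]ˣ) :
    ‖(x : ℚ_[p]) * (p : ℚ_[p]) ^ (-(x : ℚ_[p]).valuation)‖ = 1 := by
  have hpR : (p : ℝ) ≠ 0 := Nat.cast_ne_zero.2 hp.out.ne_zero
  rw [norm_mul, Padic.norm_eq_zpow_neg_valuation x.ne_zero, Padic.norm_p_zpow, neg_neg,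
    ← zpow_add₀ hpR, neg_add_cancel, zpow_zero]

/-- The unit part `x * p ^ (-v x)` of `x : ℚ_pˣ`, as an element of `ℤ_p`. -/
noncomputable def unitPartInt (x : ℚ_[p]ˣ) : ℤ_[p] :=
  ⟨(x : ℚ_[p]) * (p : ℚ_[p]) ^ (-(x : ℚ_[p]).valuation), (norm_mul_zpow_valuation p x).le⟩

theorem coe_unitPartInt (x : ℚ_[p]ˣ) :
    ((unitPartInt p x : ℤ_[p]) : ℚ_[p]) =
      (x : ℚ_[p]) * (p : ℚ_[p]) ^ (-(x : ℚ_[p]).valuation) := rfl

theorem isUnit_unitPartInt (x : ℚ_[p]ˣ) : IsUnit (unitPartInt p x) := by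
  rw [PadicInt.isUnit_iff, PadicInt.norm_def, coe_unitPartInt]
  exact norm_mul_zpow_valuation p x

/-- The unit part `x * p ^ (-v x)` of `x : ℚ_pˣ`, as an element of `ℤ_pˣ`. -/
noncomputable def unitPart (x : ℚ_[p]ˣ) : ℤ_[p]ˣ := (isUnit_unitPartInt p x).unit

theorem coe_unitPart (x : ℚ_[p]ˣ) :
    (((unitPart p x : ℤ_[p]ˣ) : ℤ_[p]) : ℚ_[p]) =
      (x : ℚ_[p]) * (p : ℚ_[p]) ^ (-(x : ℚ_[p]).valuation) := rfl

theorem valuation_units_mul (x y : ℚ_[p]ˣ) :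
    ((x * y : ℚ_[p]ˣ) : ℚ_[p]).valuation = (x : ℚ_[p]).valuation + (y : ℚ_[p]).valuation := by
  rw [Units.val_mul]
  exact Padic.valuation_mul x.ne_zero y.ne_zero

theorem unitPart_mul (x y : ℚ_[p]ˣ) : unitPart p (x * y) = unitPart p x * unitPart p y := by
  have hpQ : (p : ℚ_[p]) ≠ 0 := Nat.cast_ne_zero.2 hp.out.ne_zero
  apply Units.ext
  apply Subtype.ext
  rw [Units.val_mul, PadicInt.coe_mul, coe_unitPart, coe_unitPart, coe_unitPart,
    valuation_units_mul, neg_add, zpow_add₀ hpQ, Units.val_mul]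
  ring

/-- The homomorphism `ℚ_pˣ → 𝔽_p × 𝔽_p`: valuation mod `p` and Fermat quotient of the unit part. -/
noncomputable def powChar : ℚ_[p]ˣ →* Multiplicative (ZMod p × ZMod p) where
  toFun x := Multiplicative.ofAdd
    ((((x : ℚ_[p]).valuation : ℤ) : ZMod p),
      Multiplicative.toAdd (fermatQuot p (unitPart p x)))
  map_one' := by
    have h1 : unitPart p 1 = 1 := by
      have := unitPart_mul p 1 1
      rw [one_mul] at this
      exact (mul_eq_left (a := unitPart p 1)).1 this.symm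
    rw [h1, map_one]
    simp
  map_mul' x y := by
    rw [unitPart_mul, map_mul, valuation_units_mul]
    apply Multiplicative.toAdd.injective
    simp

/-- **The kernel of `powChar` consists of `p`-th powers** (`p` odd). -/
theorem exists_pow_eq_of_powChar_eq_one (hp2 : p ≠ 2) (x : ℚ_[p]ˣ) (h : powChar p x = 1) :
    ∃ y : ℚ_[p]ˣ, y ^ p = x := by
  have hpQ : (p : ℚ_[p]) ≠ 0 := Nat.cast_ne_zero.2 hp.out.ne_zero
  have h' := congrArg Multiplicative.toAdd h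
  have h1 : (((x : ℚ_[p]).valuation : ℤ) : ZMod p) = 0 := congrArg Prod.fst h'
  have h2 : fermatQuot p (unitPart p x) = 1 := by
    have := congrArg Prod.snd h'
    exact Multiplicative.toAdd.injective this
  obtain ⟨m, hm⟩ := (ZMod.intCast_zmod_eq_zero_iff_dvd _ p).1 h1
  obtain ⟨b, hb⟩ := exists_pow_eq_of_fermatQuot_eq_one p hp2 _ h2
  have hb' : (((b : ℤ_[p]ˣ) : ℤ_[p]) : ℚ_[p]) ^ p =
      (x : ℚ_[p]) * (p : ℚ_[p]) ^ (-(x : ℚ_[p]).valuation) := by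
    rw [← coe_unitPart, ← hb]
    simp
  have hyne : (((b : ℤ_[p]ˣ) : ℤ_[p]) : ℚ_[p]) * (p : ℚ_[p]) ^ m ≠ 0 := by
    refine mul_ne_zero ?_ (zpow_ne_zero _ hpQ)
    intro h0
    have : ((b : ℤ_[p]ˣ) : ℤ_[p]) = 0 := Subtype.ext h0
    exact b.ne_zero this
  refine ⟨Units.mk0 _ hyne, ?_⟩
  apply Units.ext
  rw [Units.val_pow_eq_pow_val, Units.val_mk0, mul_pow, hb', ← zpow_natCast ((p : ℚ_[p]) ^ m) p,
    ← zpow_mul, mul_comm m (p : ℤ), ← hm, mul_assoc, ← zpow_add₀ hpQ, neg_add_cancel, zpow_zero,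
    mul_one]

/-- `p`-th powers are in the kernel of `powChar`. -/
theorem powChar_pow (y : ℚ_[p]ˣ) : powChar p (y ^ p) = 1 := by
  rw [map_pow]
  apply Multiplicative.toAdd.injective
  rw [toAdd_pow, toAdd_one]
  ext <;> simp

end Fermat.Agent.TW.OrdLocal.PadicPow71
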