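/-
Program TW (S56), WP6 (local at `p`, strict ordinary), helper71.

**The Kummer count at `p`.**  `Γ_p = Gal(ℚ̄_p/ℚ_p)` (the Prelude's `primeLocalGaloisGroup`),
`r = localGaloisToGlobal p : Γ_p → Gal(ℚ̄/ℚ)`, `p` odd.  If `A : Rep k Γ_p` is finite, killed by `p`,
and `Γ_p` acts on `A` through the mod `p` cyclotomic character (`A.ρ g a = cycloExp p (r g) • a`),
then the continuous (= level) cohomology satisfies

  `Nat.card (continuousH1 r A) ≤ (Nat.card A) ^ 2`.

(For `A = k(ε̄)`, `k` a finite field of characteristic `p`: `#H¹(ℚ_p, μ_p ⊗ k) ≤ |k|²`.)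
Proof: Hilbert 90 + `#ℚ_pˣ/(ℚ_pˣ)^p ≤ p²` (`KummerAbs71`, `PadicPow71`), and `ζ_p ∉ ℚ_p`.
-/
import Mathlib
import Fermat.Prelude.Def_GroupCohomology_ContinuousUnramified
import Fermat.Agent.PT.BR.LocInj13
import Fermat.Agent.TW.OrdLocal.KummerAbs71
import Fermat.Agent.TW.OrdLocal.PadicPow71

set_option autoImplicit false

namespace Fermat.Agent.TW.OrdLocal.KummerQp71

open ExtCitation groupCohomology
open Fermat.Agent.TW.OrdLocal

variable (p : ℕ) [hp : Fact p.Prime]

local notation "Qbar" => AlgebraicClosure ℚ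
local notation "Gp" => (PadicAlgCl p ≃ₐ[ℚ_[p]] PadicAlgCl p)

/-! ### The local cyclotomic character and the root of unity -/

/-- The mod `p` cyclotomic character of `Γ_p`, with values in `ZMod p`. -/
noncomputable def chiLoc (g : Gp) : ZMod p :=
  ((cycloChar p (localGaloisToGlobal p g) : (ZMod p)ˣ) : ZMod p)

theorem chiLoc_val (g : Gp) : (chiLoc p g).val = cycloExp p (localGaloisToGlobal p g) :=
  val_cycloChar p _

theorem chiLoc_eq_natCast (g : Gp) :
    chiLoc p g = ((cycloExp p (localGaloisToGlobal p g) : ℕ) : ZMod p) :=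
  coe_cycloChar p _

theorem exists_zetaGlob : ∃ ζ : Qbarˣ, IsPrimitiveRoot ζ p := by
  have : NeZero (p : Qbar) := ⟨Nat.cast_ne_zero.mpr hp.out.ne_zero⟩
  obtain ⟨ζ, hζ⟩ := HasEnoughRootsOfUnity.exists_primitiveRoot Qbar p
  have hu : IsUnit ζ := hζ.isUnit hp.out.ne_zero
  obtain ⟨u, rfl⟩ := hu
  exact ⟨u, IsPrimitiveRoot.coe_units_iff.1 hζ⟩

/-- A primitive `p`-th root of unity in `ℚ̄`. -/
noncomputable def zetaGlob : Qbarˣ := (exists_zetaGlob p).choose

theorem zetaGlob_spec : IsPrimitiveRoot (zetaGlob p) p := (exists_zetaGlob p).choose_spec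

theorem apply_zetaGlob (σ : Qbar ≃ₐ[ℚ] Qbar) :
    σ (zetaGlob p : Qbar) = (zetaGlob p : Qbar) ^ cycloExp p σ := by
  have : NeZero p := ⟨hp.out.ne_zero⟩
  have hu : zetaGlob p ∈ rootsOfUnity p Qbar := by
    rw [mem_rootsOfUnity]
    exact (zetaGlob_spec p).pow_eq_one
  exact modularCyclotomicCharacter.spec Qbar (card_rootsOfUnity_eq_self p)
    (σ : Qbar ≃+* Qbar) hu

/-- The image of `zetaGlob` in `ℚ̄_p`. -/
noncomputable def zetaLoc : (PadicAlgCl p)ˣ :=
  Units.map ((padicEmbedding p : Qbar →ₐ[ℚ] PadicAlgCl p) : Qbar →* PadicAlgCl p) (zetaGlob p)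

theorem coe_zetaLoc : ((zetaLoc p : (PadicAlgCl p)ˣ) : PadicAlgCl p) =
    padicEmbedding p (zetaGlob p : Qbar) := rfl

theorem zetaLoc_spec : IsPrimitiveRoot (zetaLoc p) p := by
  rw [← IsPrimitiveRoot.coe_units_iff, coe_zetaLoc]
  exact (IsPrimitiveRoot.coe_units_iff.2 (zetaGlob_spec p)).map_of_injective
    (padicEmbedding p).injective

theorem smul_zetaLoc (g : Gp) : g • zetaLoc p = zetaLoc p ^ (chiLoc p g).val := by
  apply Units.ext
  rw [AlgEquiv.smul_units_def, Units.coe_map, Units.val_pow_eq_pow_val, coe_zetaLoc, chiLoc_val]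
  show g (padicEmbedding p (zetaGlob p : Qbar)) = _
  rw [← padicEmbedding_localGaloisToGlobal, apply_zetaGlob, map_pow]

/-- `ζ_p ∉ ℚ_p` for odd `p`: some element of `Γ_p` has nontrivial cyclotomic character. -/
theorem exists_chiLoc_ne_one (hp2 : p ≠ 2) : ∃ g : Gp, chiLoc p g ≠ 1 := by
  by_contra hcon
  simp only [not_exists, not_not] at hcon
  have hfix : ∀ g : Gp, g ((zetaLoc p : (PadicAlgCl p)ˣ) : PadicAlgCl p) =
      ((zetaLoc p : (PadicAlgCl p)ˣ) : PadicAlgCl p) := by
    intro g
    have h := congrArg (fun u : (PadicAlgCl p)ˣ => (u : PadicAlgCl p)) (smul_zetaLoc p g)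
    simp only [AlgEquiv.smul_units_def, Units.coe_map, MonoidHom.coe_coe] at h
    rw [h, hcon g, ZMod.val_one, pow_one]
  obtain ⟨x, hx⟩ := (InfiniteGalois.mem_range_algebraMap_iff_fixed
    (k := ℚ_[p]) (K := PadicAlgCl p) _).2 hfix
  have hxp : x ^ p = 1 := by
    apply (algebraMap ℚ_[p] (PadicAlgCl p)).injective
    rw [map_pow, hx, map_one, ← Units.val_pow_eq_pow_val, (zetaLoc_spec p).pow_eq_one,
      Units.val_one]
  have hx1 := PadicPow71.padic_eq_one_of_pow_eq_one p hp2 x hxp
  have hz1 : zetaLoc p = 1 := by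
    apply Units.ext
    rw [← hx, hx1, map_one, Units.val_one]
  have := (zetaLoc_spec p).eq_orderOf
  rw [hz1, orderOf_one] at this
  exact hp.out.one_lt.ne' this

theorem chiLoc_mul (g h : Gp) : chiLoc p (g * h) = chiLoc p g * chiLoc p h := by
  simp only [chiLoc, map_mul, Units.val_mul]

theorem chiLoc_one : chiLoc p 1 = 1 := by
  simp only [chiLoc, map_one, Units.val_one]

/-- The cyclotomic character is a level function. -/
theorem isLevelFun_chiLoc :
    KummerAbs71.IsLevelFun (K := ℚ_[p]) (Ω := PadicAlgCl p) (chiLoc p) := by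
  have : NeZero p := ⟨hp.out.ne_zero⟩
  refine ⟨IntermediateField.adjoin ℚ_[p] {((zetaLoc p : (PadicAlgCl p)ˣ) : PadicAlgCl p)},
    IntermediateField.adjoin.finiteDimensional (Algebra.IsIntegral.isIntegral _), fun g s hs => ?_⟩
  have hs1 : s ((zetaLoc p : (PadicAlgCl p)ˣ) : PadicAlgCl p) =
      ((zetaLoc p : (PadicAlgCl p)ˣ) : PadicAlgCl p) :=
    (IntermediateField.mem_fixingSubgroup_iff _ _).1 hs _
      (IntermediateField.mem_adjoin_simple_self _ _)
  have h := congrArg (fun u : (PadicAlgCl p)ˣ => (u : PadicAlgCl p)) (smul_zetaLoc p s)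
  simp only [AlgEquiv.smul_units_def, Units.coe_map, MonoidHom.coe_coe] at h
  rw [hs1] at h
  have h1 : (zetaLoc p) ^ (chiLoc p s).val = (zetaLoc p) ^ 1 := by
    apply Units.ext
    rw [pow_one]
    exact h.symm
  have h2 : (chiLoc p s).val = 1 :=
    (zetaLoc_spec p).pow_inj (ZMod.val_lt _) hp.out.one_lt h1
  have h3 : chiLoc p s = 1 := by
    rw [← ZMod.natCast_zmod_val (chiLoc p s), h2, Nat.cast_one]
  rw [chiLoc_mul, h3, mul_one]

/-! ### The count -/

section Count

variable {k : Type} [CommRing k] (A : Rep k (PadicAlgCl p ≃ₐ[ℚ_[p]] PadicAlgCl p))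

/-- **Kummer count at `p`**: `#H¹_cont(ℚ_p, A) ≤ (#A)²` for a finite `p`-torsion module `A` on
which `Γ_p` acts through the mod `p` cyclotomic character (`p` odd). -/
theorem finite_and_card_continuousH1_le (hp2 : p ≠ 2) [Finite A] (hpA : ∀ a : A, p • a = 0)
    (hA : ∀ (g : Gp) (a : A), A.ρ g a = cycloExp p (localGaloisToGlobal p g) • a) :
    Finite (continuousH1 (localGaloisToGlobal p) A) ∧
      Nat.card (continuousH1 (localGaloisToGlobal p) A) ≤ (Nat.card A) ^ 2 := by
  classical
  let _ : Module (ZMod p) A := AddCommGroup.zmodModule hpA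
  have hAχ : ∀ (g : Gp) (a : A), A.ρ g a = chiLoc p g • a := by
    intro g a
    rw [hA, chiLoc_eq_natCast, Nat.cast_smul_eq_nsmul]
  have hT : ∀ t : ZMod p × ZMod p, p • t = 0 := fun t => ZModModule.char_nsmul_eq_zero p t
  obtain ⟨hfin, hle⟩ := KummerAbs71.card_levelCocycles_module_le (K := ℚ_[p]) (Ω := PadicAlgCl p)
    p (zetaLoc p) (zetaLoc_spec p) (chiLoc p) (smul_zetaLoc p) hT (PadicPow71.powChar p)
    (PadicPow71.exists_pow_eq_of_powChar_eq_one p hp2) A
  have hAfin : Module.Finite (ZMod p) A := Module.Finite.of_finite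
  have hcardA : Nat.card A = p ^ Module.finrank (ZMod p) A := by
    rw [@Module.natCard_eq_pow_finrank (ZMod p) A _ _ _ hAfin, Nat.card_zmod]
  have hle' : Nat.card (KummerAbs71.levelCocycles (K := ℚ_[p]) (Ω := PadicAlgCl p) p A (chiLoc p)) ≤
      (Nat.card A) ^ 3 := by
    refine hle.trans (le_of_eq ?_)
    rw [hcardA, Nat.card_prod, Nat.card_zmod, ← pow_mul, mul_comm _ 3, pow_mul]
    congr 1
    ring
  obtain ⟨g₀, hg₀⟩ := exists_chiLoc_ne_one p hp2
  -- a section of `H1π` on the continuous classes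
  have hsec : ∀ x : continuousH1 (localGaloisToGlobal p) A, ∃ c : cocycles₁ A,
      IsLevelConstant₁ (localGaloisToGlobal p) c ∧ (H1π A).hom c = x :=
    fun x => (mem_continuousH1_iff _ A _).1 x.2
  choose sec hsec_level hsec_spec using hsec
  have hmem : ∀ (x : continuousH1 (localGaloisToGlobal p) A) (a : A),
      (fun g => (sec x : Gp → A) g + (chiLoc p g - 1) • a) ∈
        KummerAbs71.levelCocycles (K := ℚ_[p]) (Ω := PadicAlgCl p) p A (chiLoc p) := by
    intro x a
    refine ⟨fun g h => ?_, ?_⟩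
    · have hc := (mem_cocycles₁_iff (sec x : Gp → A)).1 (sec x).2 g h
      show (sec x : Gp → A) (g * h) + (chiLoc p (g * h) - 1) • a =
        (sec x : Gp → A) g + (chiLoc p g - 1) • a +
          chiLoc p g • ((sec x : Gp → A) h + (chiLoc p h - 1) • a)
      rw [hc, hAχ, chiLoc_mul, smul_add, smul_smul]
      have : (chiLoc p g * chiLoc p h - 1) • a =
          (chiLoc p g - 1) • a + (chiLoc p g * (chiLoc p h - 1)) • a := by
        rw [← add_smul]
        congr 1
        ring
      rw [this]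
      abel
    · have h1 : KummerAbs71.IsLevelFun (K := ℚ_[p]) (Ω := PadicAlgCl p) (sec x : Gp → A) :=
        (Fermat.Agent.PT.BR.LocInj13.isLevelConstant₁_iff p _).1 (hsec_level x)
      exact h1.map₂ (isLevelFun_chiLoc p) (fun y z => y + (z - 1) • a)
  let F : continuousH1 (localGaloisToGlobal p) A × A →
      KummerAbs71.levelCocycles (K := ℚ_[p]) (Ω := PadicAlgCl p) p A (chiLoc p) :=
    fun xa => ⟨_, hmem xa.1 xa.2⟩
  have hF : Function.Injective F := by
    rintro ⟨x, a⟩ ⟨x', a'⟩ h
    have hfun : ∀ g, (sec x : Gp → A) g + (chiLoc p g - 1) • a =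
        (sec x' : Gp → A) g + (chiLoc p g - 1) • a' := fun g => congrFun (congrArg Subtype.val h) g
    -- the two sections differ by a coboundary
    have hcob : ⇑(sec x - sec x') ∈ coboundaries₁ A := by
      refine ⟨a' - a, ?_⟩
      funext g
      have h1 : (sec x : Gp → A) g =
          (sec x' : Gp → A) g + (chiLoc p g - 1) • a' - (chiLoc p g - 1) • a :=
        eq_sub_of_add_eq (hfun g)
      have h2 : (sec x - sec x' : cocycles₁ A).1 g =
          (sec x : Gp → A) g - (sec x' : Gp → A) g := rfl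
      rw [d₀₁_hom_apply, hAχ]
      show chiLoc p g • (a' - a) - (a' - a) = (sec x - sec x' : cocycles₁ A).1 g
      rw [h2, h1]
      module
    have hx : x = x' := by
      apply Subtype.ext
      rw [← hsec_spec x, ← hsec_spec x']
      have h0 : (H1π A).hom (sec x - sec x') = 0 := (H1π_eq_zero_iff _).2 hcob
      rw [map_sub, sub_eq_zero] at h0
      exact h0
    subst hx
    have ha : (chiLoc p g₀ - 1) • a = (chiLoc p g₀ - 1) • a' := add_left_cancel (hfun g₀)
    have hunit : chiLoc p g₀ - 1 ≠ 0 := sub_ne_zero.2 hg₀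
    have ha' : a = a' := by
      have := congrArg (fun y => (chiLoc p g₀ - 1)⁻¹ • y) ha
      simpa [smul_smul, inv_mul_cancel₀ hunit] using this
    rw [ha']
  have hcard : Nat.card (continuousH1 (localGaloisToGlobal p) A) * Nat.card A ≤ (Nat.card A) ^ 3 := by
    rw [← Nat.card_prod]
    exact (Nat.card_le_card_of_injective F hF).trans hle'
  have hApos : 0 < Nat.card A := Nat.card_pos
  have : Nat.card (continuousH1 (localGaloisToGlobal p) A) * Nat.card A ≤
      (Nat.card A) ^ 2 * Nat.card A := by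
    rw [← pow_succ]
    exact hcard
  have hfinprod : Finite (continuousH1 (localGaloisToGlobal p) A × A) := Finite.of_injective F hF
  exact ⟨Finite.prod_left A, Nat.le_of_mul_le_mul_right this hApos⟩

theorem card_continuousH1_le (hp2 : p ≠ 2) [Finite A] (hpA : ∀ a : A, p • a = 0)
    (hA : ∀ (g : Gp) (a : A), A.ρ g a = cycloExp p (localGaloisToGlobal p g) • a) :
    Nat.card (continuousH1 (localGaloisToGlobal p) A) ≤ (Nat.card A) ^ 2 :=
  (finite_and_card_continuousH1_le p A hp2 hpA hA).2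

theorem finite_continuousH1 (hp2 : p ≠ 2) [Finite A] (hpA : ∀ a : A, p • a = 0)
    (hA : ∀ (g : Gp) (a : A), A.ρ g a = cycloExp p (localGaloisToGlobal p g) • a) :
    Finite (continuousH1 (localGaloisToGlobal p) A) :=
  (finite_and_card_continuousH1_le p A hp2 hpA hA).1

end Count

/-! ### Field coefficients -/

section FieldCoeff

variable {k : Type} [Field k] [Finite k] [Algebra (ZMod p) k]
  (A : Rep k (PadicAlgCl p ≃ₐ[ℚ_[p]] PadicAlgCl p))

omit [Finite k] in
/-- Scalar multiplication by the cyclotomic character, in two spellings. -/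
theorem algebraMap_cycloChar_smul (σ : Qbar ≃ₐ[ℚ] Qbar) (a : A) :
    algebraMap (ZMod p) k ((cycloChar p σ : (ZMod p)ˣ) : ZMod p) • a = cycloExp p σ • a := by
  rw [coe_cycloChar, map_natCast, Nat.cast_smul_eq_nsmul]

/-- **Kummer count at `p`, field coefficients**: if `k` is a finite field of characteristic `p`
and `Γ_p` acts on the finite-dimensional `k`-space `A` through the mod `p` cyclotomic character,
then `#H¹_cont(ℚ_p, A) ≤ |k| ^ (2 dim A)`; in particular `≤ |k|²` for `A = k(ε̄)`. -/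
theorem finite_and_card_continuousH1_le_pow (hp2 : p ≠ 2) [Module.Finite k A]
    (hA : ∀ (g : Gp) (a : A), A.ρ g a =
      algebraMap (ZMod p) k ((cycloChar p (localGaloisToGlobal p g) : (ZMod p)ˣ) : ZMod p) • a) :
    Finite (continuousH1 (localGaloisToGlobal p) A) ∧
      Nat.card (continuousH1 (localGaloisToGlobal p) A) ≤
        (Nat.card k) ^ (2 * Module.finrank k A) := by
  have hfinA : Finite A := Module.finite_of_finite k
  have hchar : CharP k p := by
    have : CharP (ZMod p) p := ZMod.charP p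
    exact charP_of_injective_algebraMap (algebraMap (ZMod p) k).injective p
  have hpA : ∀ a : A, p • a = 0 := by
    intro a
    rw [← Nat.cast_smul_eq_nsmul k, CharP.cast_eq_zero, zero_smul]
  have h := finite_and_card_continuousH1_le p A hp2 hpA (fun g a => by
    rw [hA, algebraMap_cycloChar_smul])
  refine ⟨h.1, h.2.trans (le_of_eq ?_)⟩
  rw [Module.natCard_eq_pow_finrank (K := k) (V := A), ← pow_mul, mul_comm]

end FieldCoeff

/-! ### The Prelude's names -/

section PreludeNames

/-- The same count, for the Prelude's `primeLocalGaloisGroup (pPrime p)` and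
`primeLocalToGlobal (pPrime p)` (definitionally the same objects). -/
theorem finite_and_card_continuousH1_primeLocal_le (hp2 : p ≠ 2) {k : Type} [CommRing k]
    (A : Rep k (primeLocalGaloisGroup (pPrime p))) [Finite A] (hpA : ∀ a : A, p • a = 0)
    (hA : ∀ (g : primeLocalGaloisGroup (pPrime p)) (a : A),
      A.ρ g a = cycloExp p (primeLocalToGlobal (pPrime p) g) • a) :
    Finite (continuousH1 (primeLocalToGlobal (pPrime p)) A) ∧
      Nat.card (continuousH1 (primeLocalToGlobal (pPrime p)) A) ≤ (Nat.card A) ^ 2 :=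
  finite_and_card_continuousH1_le p A hp2 hpA hA

end PreludeNames

end Fermat.Agent.TW.OrdLocal.KummerQp71
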