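/-
helper97 (TW / WP6, part 6a): **strictly ordinary lifts over the dual numbers are rigid on the
diagonal**.

Setting: `k` a field in which `p = 0` and `2 ≠ 0`, `A = k[ε]` the dual numbers,
`ρ : GaloisRepAdic A` with `ρ.IsStrictOrdinaryAt p` and `ρ.DetIsCyclotomic p` (literal Prelude
clauses), `P` a valuation subring of `ℚ̄` over `p`.

Result (`exists_adapted_basis`): there is an `A`-basis `b` of `ρ.V` such that for every `σ` in the
decomposition group of `P` the matrix of `ρ σ` in `b` is
`!![inl (a * z), u; 0, inl z]` with `z ∈ k`, `z * z = 1`, `z = 1` on inertia, where `a` is any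
exponent with `σ μ = μ ^ a` on `p`-th roots of unity.  In particular the diagonal has no `ε`-part.
-/
import Mathlib
import Fermat.Prelude.Def_GaloisRep_StrictOrdinary
import Fermat.Prelude.Def_ExtCitation_AdmissibleExtension
import Fermat.Agent.S53.MatrixModel

set_option autoImplicit false

namespace Fermat.Agent.TW.OrdLocal.StrictLift97

open TrivSqZeroExt
open Fermat.Agent.S53 (GQ M2)
open Fermat.Agent.S53.MatrixModel (matrixOf matrixOf_apply)

local notation "Qb" => AlgebraicClosure ℚ

section Cyclo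

variable (p : ℕ) [Fact p.Prime]

/-- Every automorphism of `ℚ̄` raises all `p`-th roots of unity to the power
`ExtCitation.cycloExp p σ`. -/
theorem apply_eq_pow_cycloExp (σ : GQ) {μ : Qb} (hμ : μ ^ p = 1) :
    σ μ = μ ^ ExtCitation.cycloExp p σ := by
  have : NeZero p := ⟨(Fact.out : p.Prime).ne_zero⟩
  have hu : IsUnit μ := IsUnit.of_pow_eq_one hμ (NeZero.ne p)
  obtain ⟨u, rfl⟩ := hu
  have hmem : u ∈ rootsOfUnity p Qb := by
    rw [mem_rootsOfUnity]
    exact Units.ext (by simpa using hμ)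
  exact modularCyclotomicCharacter.spec Qb (ExtCitation.card_rootsOfUnity_eq_self p)
    (σ : Qb ≃+* Qb) hmem

theorem exists_primitiveRoot : ∃ ζ : Qb, IsPrimitiveRoot ζ p :=
  haveI : NeZero (p : Qb) := ⟨Nat.cast_ne_zero.mpr (Fact.out : p.Prime).ne_zero⟩
  HasEnoughRootsOfUnity.exists_primitiveRoot Qb p

/-- Any exponent describing the action of an automorphism on `p`-th roots of unity is prime
to `p`. -/
theorem coprime_of_forall_apply_eq_pow {σ : GQ} {a : ℕ}
    (ha : ∀ μ : Qb, μ ^ p = 1 → σ μ = μ ^ a) : a.Coprime p := by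
  obtain ⟨ζ, hζ⟩ := exists_primitiveRoot p
  have h1 : IsPrimitiveRoot (σ ζ) p := hζ.map_of_injective (f := σ) σ.injective
  rw [ha ζ hζ.pow_eq_one] at h1
  have hp0 : 0 < p := (Fact.out : p.Prime).pos
  by_contra hcon
  have hdvd : p ∣ a := by
    rw [Nat.coprime_comm, Nat.Prime.coprime_iff_not_dvd (Fact.out : p.Prime)] at hcon
    exact not_not.mp hcon
  obtain ⟨c, rfl⟩ := hdvd
  have h2 : ζ ^ (p * c) = 1 := by rw [pow_mul, hζ.pow_eq_one, one_pow]
  rw [h2] at h1
  have h3 : p = 1 := IsPrimitiveRoot.one_left_iff.mp h1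
  exact (Fact.out : p.Prime).one_lt.ne' h3

/-- Two exponents describing the same automorphism on `p`-th roots of unity agree mod `p`. -/
theorem modEq_of_forall_apply_eq_pow {σ : GQ} {a a' : ℕ}
    (ha : ∀ μ : Qb, μ ^ p = 1 → σ μ = μ ^ a) (ha' : ∀ μ : Qb, μ ^ p = 1 → σ μ = μ ^ a') :
    a ≡ a' [MOD p] := by
  obtain ⟨ζ, hζ⟩ := exists_primitiveRoot p
  have h := (ha ζ hζ.pow_eq_one).symm.trans (ha' ζ hζ.pow_eq_one)
  have hp0 : p ≠ 0 := (Fact.out : p.Prime).ne_zero
  have hu : IsUnit ζ := hζ.isUnit hp0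
  obtain ⟨u, rfl⟩ := hu
  have hu' : (u ^ a : Qbˣ) = u ^ a' := Units.ext (by simpa using h)
  have ho : orderOf u = p := by
    rw [← orderOf_units]
    exact hζ.eq_orderOf.symm
  have := pow_eq_pow_iff_modEq.mp hu'
  rwa [ho] at this

end Cyclo

section DualAlgebra

variable {k : Type} [Field k]

/-- In `k[ε]` with `2 ≠ 0`, a square root of `1` is a constant. -/
theorem eq_inl_of_mul_self_eq_one (h2 : (2 : k) ≠ 0) {z : DualNumber k} (hz : z * z = 1) :
    z = inl (fst z) ∧ fst z * fst z = 1 := by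
  have h1 : fst z * fst z = 1 := by
    have := congrArg fst hz
    simpa using this
  have h3 : fst z * snd z + snd z * fst z = 0 := by
    have := congrArg snd hz
    rw [DualNumber.snd_mul] at this
    simpa using this
  have hz0 : fst z ≠ 0 := by
    intro h
    rw [h] at h1
    simp at h1
  have h4 : snd z = 0 := by
    have h5 : (2 * fst z) * snd z = 0 := by linear_combination h3
    rcases mul_eq_zero.mp h5 with h | h
    · exact absurd h (mul_ne_zero h2 hz0)
    · exact h
  refine ⟨?_, h1⟩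
  ext
  · simp
  · simp [h4]

/-- A natural number prime to the characteristic is a unit in `k[ε]`. -/
theorem isUnit_natCast_dualNumber {a : ℕ} (ha : (a : k) ≠ 0) : IsUnit ((a : ℕ) : DualNumber k) := by
  have h1 : ((a : ℕ) : DualNumber k) = inl (a : k) := by
    ext <;> simp
  rw [h1]
  exact (isUnit_iff_ne_zero.mpr ha).map (inlHom k k)

variable {V : Type} [AddCommGroup V] [Module (DualNumber k) V]

/-- The matrix of an endomorphism that stabilises the line spanned by `b 0`, acting by `x` on the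
line and by `z` on the quotient. -/
theorem toMatrix_eq_of_triangular (b : Module.Basis (Fin 2) (DualNumber k) V)
    (f : Module.End (DualNumber k) V) (x z : DualNumber k) (hx : f (b 0) = x • b 0)
    (hz : f (b 1) - z • b 1 ∈ Submodule.span (DualNumber k) {b 0}) :
    ∃ u : DualNumber k, LinearMap.toMatrix b b f = !![x, u; 0, z] := by
  obtain ⟨u, hu⟩ := Submodule.mem_span_singleton.mp hz
  refine ⟨u, ?_⟩
  have h1 : f (b 1) = u • b 0 + z • b 1 := by rw [hu]; abel
  refine Matrix.ext fun i j => ?_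
  rw [LinearMap.toMatrix_apply]
  fin_cases j
  · show b.repr (f (b 0)) i = _
    rw [hx, map_smul, Module.Basis.repr_self]
    fin_cases i <;> simp
  · show b.repr (f (b 1)) i = _
    rw [h1, map_add, map_smul, map_smul, Module.Basis.repr_self, Module.Basis.repr_self]
    fin_cases i <;> simp

end DualAlgebra

section Main

variable {k : Type} [Field k] (p : ℕ) [Fact p.Prime]

omit [Fact p.Prime] in
theorem natCast_dualNumber_eq_zero (hpk : (p : k) = 0) (n : ℕ) :
    (((p ^ (n + 1) : ℕ)) : DualNumber k) = 0 := by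
  ext
  · simp [hpk]
  · simp

omit [Fact p.Prime] in
theorem natCast_ne_zero_of_coprime (hpk : (p : k) = 0) {a : ℕ} (ha : a.Coprime p) :
    (a : k) ≠ 0 := by
  intro h0
  have h1 : IsCoprime (a : ℤ) (p : ℤ) := Nat.isCoprime_iff_coprime.mpr ha
  obtain ⟨u, v, huv⟩ := h1
  have h2 := congrArg (fun t : ℤ => (t : k)) huv
  simp only [Int.cast_add, Int.cast_mul, Int.cast_natCast, Int.cast_one] at h2
  rw [h0, hpk, mul_zero, mul_zero, add_zero] at h2
  exact zero_ne_one h2

/-- If `c • b 0 = d • b 1` for a basis `b` then `d = 0`. -/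
theorem eq_zero_of_smul_eq_smul {R V : Type} [CommRing R] [AddCommGroup V] [Module R V]
    (b : Module.Basis (Fin 2) R V) {c d : R} (h : c • b 0 = d • b 1) : d = 0 := by
  have h1 := congrArg (fun v => b.repr v 1) h
  simpa using h1.symm

/-- **WP6 (6a), adapted basis.**  A strictly ordinary lift with cyclotomic determinant over the
dual numbers of a field of odd characteristic `p`: in a basis adapted to the ordinary line, the
decomposition group acts by `!![a z, u; 0, z]` with CONSTANT diagonal (`z ∈ k`, `z² = 1`, `z = 1`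
on inertia, `a` the exponent of the mod `p` cyclotomic character). -/
theorem exists_adapted_basis (h2 : (2 : k) ≠ 0) (hpk : (p : k) = 0)
    (ρ : GaloisRepAdic (DualNumber k)) (hord : ρ.IsStrictOrdinaryAt p)
    (hdet : ρ.DetIsCyclotomic p) (P : ValuationSubring Qb) (hP : P.LiesOverPrime p) :
    ∃ b : Module.Basis (Fin 2) (DualNumber k) ρ.V,
      (∀ σ ∈ P.decompositionSubgroup ℚ, ∀ v ∈ Submodule.span (DualNumber k) {b 0},
        ρ.ρ σ v ∈ Submodule.span (DualNumber k) {b 0}) ∧
      ∀ σ ∈ P.decompositionSubgroup ℚ, ∀ a : ℕ, (∀ μ : Qb, μ ^ p = 1 → σ μ = μ ^ a) →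
        ∃ (z : k) (u : DualNumber k), z * z = 1 ∧ (σ ∈ P.inertiaSubgroupIn ℚ → z = 1) ∧
          matrixOf ρ b σ = !![inl ((a : k) * z), u; 0, inl z] := by
  obtain ⟨L, ⟨b, hL⟩, hD, hI, hstr⟩ := hord.2 P hP
  refine ⟨b, ?_, ?_⟩
  · intro σ hσ v hv
    rw [← hL] at hv ⊢
    exact hD σ hσ v hv
  intro σ hσ a ha
  obtain ⟨x, z, hxL, hzL, hcong⟩ := hstr σ hσ
  have ha1 : ∀ μ : Qb, μ ^ p ^ 1 = 1 → σ μ = μ ^ a := by
    intro μ hμ
    exact ha μ (by simpa using hμ)
  have hp0 : (((p ^ 1 : ℕ)) : DualNumber k) = 0 := natCast_dualNumber_eq_zero p hpk 0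
  -- `x = a z`
  have hxz : x = (a : DualNumber k) * z := by
    have h := hcong 1 a ha1
    rw [hp0, Ideal.span_singleton_zero, Ideal.mem_bot] at h
    exact sub_eq_zero.mp h
  -- the matrix
  have hb0 : b 0 ∈ L := by
    rw [hL]
    exact Submodule.mem_span_singleton_self _
  have hz1 : ρ.ρ σ (b 1) - z • b 1 ∈ Submodule.span (DualNumber k) {b 0} := by
    rw [← hL]
    exact hzL (b 1)
  obtain ⟨u, hu⟩ := toMatrix_eq_of_triangular b (ρ.ρ σ) x z (hxL _ hb0) hz1
  -- determinant
  have hdetσ : LinearMap.det (ρ.ρ σ) = (a : DualNumber k) := by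
    have h := hdet.2 1 σ a ha1
    rw [hp0, Ideal.span_singleton_zero, Ideal.mem_bot] at h
    exact sub_eq_zero.mp h
  have hdet2 : x * z = (a : DualNumber k) := by
    rw [← hdetσ, ← LinearMap.det_toMatrix b, hu, Matrix.det_fin_two_of]
    ring
  -- `a` is a unit
  have hcop : a.Coprime p := coprime_of_forall_apply_eq_pow p ha
  have hak : (a : k) ≠ 0 := natCast_ne_zero_of_coprime p hpk hcop
  have haU : IsUnit ((a : ℕ) : DualNumber k) := isUnit_natCast_dualNumber hak
  have hzz : z * z = 1 := by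
    rw [hxz] at hdet2
    have h3 : (a : DualNumber k) * (z * z) = (a : DualNumber k) * 1 := by
      rw [mul_one, ← mul_assoc]
      exact hdet2
    exact haU.mul_left_cancel h3
  obtain ⟨hzc, hz0⟩ := eq_inl_of_mul_self_eq_one h2 hzz
  refine ⟨fst z, u, hz0, ?_, ?_⟩
  · intro hσI
    have h5 : ρ.ρ σ (b 1) - b 1 ∈ L := hI σ hσI (b 1)
    have h6 : (z - 1) • b 1 ∈ L := by
      have e : (z - 1) • b 1 = (ρ.ρ σ (b 1) - b 1) - (ρ.ρ σ (b 1) - z • b 1) := by
        rw [sub_smul, one_smul]
        abel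
      rw [e]
      exact L.sub_mem h5 (hzL (b 1))
    rw [hL] at h6
    obtain ⟨c, hc⟩ := Submodule.mem_span_singleton.mp h6
    have h7 : z - 1 = 0 := eq_zero_of_smul_eq_smul b hc
    have h8 : z = 1 := sub_eq_zero.mp h7
    rw [h8]
    simp
  · rw [matrixOf_apply, hu, hxz]
    have e1 : (a : DualNumber k) * z = inl ((a : k) * fst z) := by
      conv_lhs => rw [hzc]
      ext <;> simp
    rw [e1, ← hzc]

end Main

end Fermat.Agent.TW.OrdLocal.StrictLift97
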