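/-
helper97 (TW / WP6, part 6a, second file): **the cocycle of a strictly ordinary lift is, on the
decomposition group, cohomologous to a cocycle with values in `W⁰ = Hom(V̄/L̄, L̄)`**.

Matrix form.  `ρ : GaloisRepAdic k[ε]` strictly ordinary at `p` with cyclotomic determinant,
`β` ANY basis of `ρ.V`, `R σ := matrixOf ρ β σ = R₀ σ + ε R₁ σ` and `C σ` with
`R₁ σ = C σ * R₀ σ` (so `R = (1 + ε C) R₀`).  Then there are `g₀ ∈ GL₂(k)` and a trace-zero
`Y ∈ M₂(k)` such that for every `σ` in the decomposition group of `P ∣ p`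

* `g₀⁻¹ R₀(σ) g₀ = !![a z, u₀; 0, z]`, `z² = 1`, `z = 1` on inertia, `a` = cyclotomic exponent;
* `g₀⁻¹ (C σ + R₀(σ) Y R₀(σ)⁻¹ - Y) g₀ = !![0, w; 0, 0]`.
-/
import Mathlib
import Fermat.Agent.TW.OrdLocal.StrictLift97

set_option autoImplicit false

namespace Fermat.Agent.TW.OrdLocal.OrdCocycle97

open TrivSqZeroExt
open Fermat.Agent.S53 (GQ M2)
open Fermat.Agent.S53.MatrixModel (matrixOf matrixOf_apply)
open Fermat.Agent.TW.OrdLocal.StrictLift97

local notation "Qb" => AlgebraicClosure ℚ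

section MatParts

variable {k : Type} [Field k]

/-- The constant part of a matrix over the dual numbers. -/
def part0 (N : M2 (DualNumber k)) : M2 k := N.map fst

/-- The `ε`-part of a matrix over the dual numbers. -/
def part1 (N : M2 (DualNumber k)) : M2 k := N.map snd

omit [Field k] in
@[simp] theorem part0_apply (N : M2 (DualNumber k)) (i j : Fin 2) : part0 N i j = fst (N i j) := rfl

omit [Field k] in
@[simp] theorem part1_apply (N : M2 (DualNumber k)) (i j : Fin 2) : part1 N i j = snd (N i j) := rfl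

theorem part0_mul (N N' : M2 (DualNumber k)) : part0 (N * N') = part0 N * part0 N' := by
  ext i j
  simp [Matrix.mul_apply, Fin.sum_univ_two]

theorem part1_mul (N N' : M2 (DualNumber k)) :
    part1 (N * N') = part0 N * part1 N' + part1 N * part0 N' := by
  ext i j
  simp only [part1_apply, part0_apply, Matrix.mul_apply, Fin.sum_univ_two, Matrix.add_apply,
    snd_add, DualNumber.snd_mul]
  ring

theorem part0_one : part0 (1 : M2 (DualNumber k)) = 1 := by
  ext i j
  fin_cases i <;> fin_cases j <;> simp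

theorem part1_one : part1 (1 : M2 (DualNumber k)) = 0 := by
  ext i j
  fin_cases i <;> fin_cases j <;> simp

/-- **Conjugation bookkeeping.**  If `g' R g = T` over `k[ε]` with `g g' = 1 = g' g`,
`R₁ = C R₀` and `R₀ Rinv = 1`, then with `Y := g₁ g'₀` one has
`(C + R₀ Y Rinv - Y) R₀ g₀ = g₀ T₁`. -/
theorem conj_part1 {g g' R T : M2 (DualNumber k)} (hgg' : g * g' = 1) (hg'g : g' * g = 1)
    (hT : g' * R * g = T) (C Rinv : M2 k) (hC : part1 R = C * part0 R)
    (hRinv : Rinv * part0 R = 1) :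
    (C + part0 R * (part1 g * part0 g') * Rinv - part1 g * part0 g') * part0 R * part0 g =
      part0 g * part1 T := by
  have h1 : R * g = g * T := by
    rw [← hT, ← mul_assoc, ← mul_assoc, hgg', one_mul]
  have h10 : part0 R * part0 g = part0 g * part0 T := by
    rw [← part0_mul, ← part0_mul, h1]
  have h11 : part0 R * part1 g + part1 R * part0 g = part0 g * part1 T + part1 g * part0 T := by
    rw [← part1_mul, ← part1_mul, h1]
  have h00 : part0 g' * part0 g = 1 := by rw [← part0_mul, hg'g, part0_one]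
  have hT0 : part0 T = part0 g' * part0 R * part0 g := by
    rw [← hT, part0_mul, part0_mul]
  -- expand
  have e1 : (C + part0 R * (part1 g * part0 g') * Rinv - part1 g * part0 g') * part0 R * part0 g
      = C * part0 R * part0 g + part0 R * part1 g * (part0 g' * (Rinv * part0 R) * part0 g)
        - part1 g * (part0 g' * part0 R * part0 g) := by
    noncomm_ring
  rw [e1, hRinv, mul_one, h00, mul_one, ← hC, ← hT0]
  have e2 : part1 R * part0 g = part0 g * part1 T + part1 g * part0 T - part0 R * part1 g := by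
    rw [← h11]; abel
  rw [e2]
  abel

/-- A scalar matrix has trivial coboundary. -/
theorem conj_sub_scalar (R0 Rinv Y : M2 k) (s : k) (hR : R0 * Rinv = 1) :
    R0 * (Y - s • (1 : M2 k)) * Rinv - (Y - s • (1 : M2 k)) = R0 * Y * Rinv - Y := by
  have e : R0 * (Y - s • (1 : M2 k)) * Rinv = R0 * Y * Rinv - s • (R0 * Rinv) := by
    rw [mul_sub, sub_mul, mul_smul_comm, mul_one, smul_mul_assoc]
  rw [e, hR]
  abel

/-- Solving `N * !![x, u₀; 0, z] = !![0, u₁; 0, 0]` with `x z ≠ 0`. -/
theorem eq_of_mul_upper (N : M2 k) {x z u0 u1 : k} (hx : x ≠ 0) (hz : z ≠ 0)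
    (h : N * !![x, u0; 0, z] = !![0, u1; 0, 0]) : N = !![0, N 0 1; 0, 0] := by
  have h00 : N 0 0 * x = 0 := by
    have := congrFun (congrFun h 0) 0
    simpa [Matrix.mul_apply, Fin.sum_univ_two] using this
  have h10 : N 1 0 * x = 0 := by
    have := congrFun (congrFun h 1) 0
    simpa [Matrix.mul_apply, Fin.sum_univ_two] using this
  have h11 : N 1 0 * u0 + N 1 1 * z = 0 := by
    have := congrFun (congrFun h 1) 1
    simpa [Matrix.mul_apply, Fin.sum_univ_two] using this
  have e00 : N 0 0 = 0 := (mul_eq_zero.mp h00).resolve_right hx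
  have e10 : N 1 0 = 0 := (mul_eq_zero.mp h10).resolve_right hx
  have e11 : N 1 1 = 0 := by
    rw [e10, zero_mul, zero_add] at h11
    exact (mul_eq_zero.mp h11).resolve_right hz
  ext i j
  fin_cases i <;> fin_cases j <;> simp [e00, e10, e11]

end MatParts

section Main

variable {k : Type} [Field k] (p : ℕ) [Fact p.Prime]

/-- **WP6 (6a), cocycle form (matrices).**  See the file header. -/
theorem exists_conj_cocycle (h2 : (2 : k) ≠ 0) (hpk : (p : k) = 0)
    (ρ : GaloisRepAdic (DualNumber k)) (hord : ρ.IsStrictOrdinaryAt p)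
    (hdet : ρ.DetIsCyclotomic p) (P : ValuationSubring Qb) (hP : P.LiesOverPrime p)
    (β : Module.Basis (Fin 2) (DualNumber k) ρ.V) :
    ∃ (g0 g0' Y : M2 k), g0 * g0' = 1 ∧ g0' * g0 = 1 ∧ Y.trace = 0 ∧
      ∀ σ ∈ P.decompositionSubgroup ℚ, ∀ a : ℕ, (∀ μ : Qb, μ ^ p = 1 → σ μ = μ ^ a) →
        ∃ z u0 : k, z * z = 1 ∧ (σ ∈ P.inertiaSubgroupIn ℚ → z = 1) ∧
          g0' * part0 (matrixOf ρ β σ) * g0 = !![(a : k) * z, u0; 0, z] ∧
          ∀ C : M2 k, part1 (matrixOf ρ β σ) = C * part0 (matrixOf ρ β σ) →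
            ∃ w : k, g0' * (C + part0 (matrixOf ρ β σ) * Y * part0 (matrixOf ρ β σ⁻¹) - Y) * g0 =
              !![0, w; 0, 0] := by
  obtain ⟨b, -, hb⟩ := exists_adapted_basis p h2 hpk ρ hord hdet P hP
  -- base change matrices
  set g : M2 (DualNumber k) := β.toMatrix b with hg
  set g' : M2 (DualNumber k) := b.toMatrix β with hg'
  have hgg' : g * g' = 1 := Module.Basis.toMatrix_mul_toMatrix_flip β b
  have hg'g : g' * g = 1 := Module.Basis.toMatrix_mul_toMatrix_flip b β
  have hconj : ∀ σ, g' * matrixOf ρ β σ * g = matrixOf ρ b σ := by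
    intro σ
    rw [matrixOf_apply, matrixOf_apply]
    exact basis_toMatrix_mul_linearMap_toMatrix_mul_basis_toMatrix b β b β (ρ.ρ σ)
  have h00 : part0 g' * part0 g = 1 := by rw [← part0_mul, hg'g, part0_one]
  have h00' : part0 g * part0 g' = 1 := by rw [← part0_mul, hgg', part0_one]
  set Y' : M2 k := part1 g * part0 g' with hY'
  have h2' : (2 : k)⁻¹ * 2 = 1 := inv_mul_cancel₀ h2
  refine ⟨part0 g, part0 g', Y' - ((2 : k)⁻¹ * Y'.trace) • (1 : M2 k), h00', h00, ?_, ?_⟩
  · rw [Matrix.trace_sub, Matrix.trace_smul, Matrix.trace_one, Fintype.card_fin, smul_eq_mul]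
    have : ((2 : ℕ) : k) = 2 := by norm_num
    rw [this]
    linear_combination (-Y'.trace) * h2'
  intro σ hσ a ha
  obtain ⟨z, u, hzz, hzI, hmat⟩ := hb σ hσ a ha
  have hak : (a : k) ≠ 0 :=
    natCast_ne_zero_of_coprime p hpk (coprime_of_forall_apply_eq_pow p ha)
  have hz0 : z ≠ 0 := by
    intro h
    rw [h, mul_zero] at hzz
    exact zero_ne_one hzz
  have hT := hconj σ
  rw [hmat] at hT
  -- constant part of T
  have hT0 : part0 (!![inl ((a : k) * z), u; 0, inl z] : M2 (DualNumber k)) =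
      !![(a : k) * z, fst u; 0, z] := by
    ext i j
    fin_cases i <;> fin_cases j <;> simp
  have hT1 : part1 (!![inl ((a : k) * z), u; 0, inl z] : M2 (DualNumber k)) =
      !![0, snd u; 0, 0] := by
    ext i j
    fin_cases i <;> fin_cases j <;> simp
  have hR0 : part0 g' * part0 (matrixOf ρ β σ) * part0 g = !![(a : k) * z, fst u; 0, z] := by
    rw [← part0_mul, ← part0_mul, hT, hT0]
  refine ⟨z, fst u, hzz, hzI, hR0, ?_⟩
  intro C hC
  -- inverse of the constant part of `R σ`
  have hinv : part0 (matrixOf ρ β σ⁻¹) * part0 (matrixOf ρ β σ) = 1 := by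
    rw [← part0_mul, ← map_mul, inv_mul_cancel, map_one, part0_one]
  have hinv' : part0 (matrixOf ρ β σ) * part0 (matrixOf ρ β σ⁻¹) = 1 := by
    rw [← part0_mul, ← map_mul, mul_inv_cancel, map_one, part0_one]
  have key := conj_part1 hgg' hg'g hT C (part0 (matrixOf ρ β σ⁻¹)) hC hinv
  rw [hT1] at key
  have hm_eq : C + part0 (matrixOf ρ β σ) * (Y' - ((2 : k)⁻¹ * Y'.trace) • (1 : M2 k)) *
        part0 (matrixOf ρ β σ⁻¹) - (Y' - ((2 : k)⁻¹ * Y'.trace) • (1 : M2 k)) =
      C + (part0 (matrixOf ρ β σ) * Y' * part0 (matrixOf ρ β σ⁻¹) - Y') := by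
    rw [add_sub_assoc, conj_sub_scalar _ _ Y' _ hinv']
  rw [hm_eq]
  set m : M2 k := C + (part0 (matrixOf ρ β σ) * Y' * part0 (matrixOf ρ β σ⁻¹) - Y') with hm
  have key' : m * part0 (matrixOf ρ β σ) * part0 g = part0 g * !![0, snd u; 0, 0] := by
    rw [hm, ← add_sub_assoc]
    exact key
  -- `N T₀ = T₁`
  have hN : (part0 g' * m * part0 g) * !![(a : k) * z, fst u; 0, z] = !![0, snd u; 0, 0] := by
    rw [← hR0]
    calc part0 g' * m * part0 g * (part0 g' * part0 (matrixOf ρ β σ) * part0 g)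
        = part0 g' * m * (part0 g * part0 g') * part0 (matrixOf ρ β σ) * part0 g := by
          noncomm_ring
      _ = part0 g' * (m * part0 (matrixOf ρ β σ) * part0 g) := by
          rw [h00', mul_one]; noncomm_ring
      _ = !![0, snd u; 0, 0] := by
          rw [key', ← mul_assoc, h00, one_mul]
  exact ⟨_, eq_of_mul_upper _ (mul_ne_zero hak hz0) hz0 hN⟩

end Main

end Fermat.Agent.TW.OrdLocal.OrdCocycle97
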