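/-
helper97 (TW / WP6, part 6a, third file): **endomorphism form** of `OrdCocycle97`, in the language
of `TW/Spec/Defs52` (`IsLiftCocycle`).

If `c : GQ → End_k(ρbar.V)` describes a lift `ρ` of `ρbar` to `k[ε]` which is strictly ordinary at
`p` with cyclotomic determinant, then for `P ∣ p` there are a nonzero vector `v₀ ∈ ρbar.V` and a
trace-zero `y ∈ End_k(ρbar.V)` such that for all `σ` in the decomposition group of `P`:

* `ρbar(σ) v₀ = (a z) v₀`, `(ρbar(σ) - z) V ⊆ k v₀`, `z² = 1`, `z = 1` on inertia;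
* `m := c σ + ρbar(σ) y ρbar(σ)⁻¹ - y` satisfies `m v₀ = 0` and `m V ⊆ k v₀`,
  i.e. `m ∈ W⁰ = Hom(V/L, L)`, `L = k v₀`.
-/
import Mathlib
import Fermat.Agent.TW.OrdLocal.OrdCocycle97
import Fermat.Agent.TW.Spec.Defs52

set_option autoImplicit false

namespace Fermat.Agent.TW.OrdLocal.OrdEnd97

open TrivSqZeroExt
open Fermat.Agent.S53 (GQ M2)
open Fermat.Agent.S53.MatrixModel (matrixOf matrixOf_apply)
open Fermat.Agent.TW.OrdLocal.StrictLift97
open Fermat.Agent.TW.OrdLocal.OrdCocycle97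
open Fermat.Agent.TW.Spec.Defs52 (IsLiftCocycle)

local notation "Qb" => AlgebraicClosure ℚ

section LinAlg

variable {k V : Type} [Field k] [AddCommGroup V] [Module k V]

/-- Transport of a triangular matrix identity `[F] g₀ = g₀ !![x, u; 0, z]` to vectors. -/
theorem apply_of_mul_eq (bbar : Module.Basis (Fin 2) k V) (F : Module.End k V) (g0 g0' : M2 k)
    (hg : g0 * g0' = 1) (x u z : k)
    (h : LinearMap.toMatrix bbar bbar F * g0 = g0 * !![x, u; 0, z]) :
    F (Matrix.toLin bbar bbar g0 (bbar 0)) = x • Matrix.toLin bbar bbar g0 (bbar 0) ∧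
    ∀ v, F v - z • v ∈ Submodule.span k {Matrix.toLin bbar bbar g0 (bbar 0)} := by
  set G0 := Matrix.toLin bbar bbar g0 with hG0
  set G0' := Matrix.toLin bbar bbar g0' with hG0'
  set T := Matrix.toLin bbar bbar (!![x, u; 0, z] : M2 k) with hT
  have hFG : ∀ w, F (G0 w) = G0 (T w) := by
    intro w
    have e1 : F = Matrix.toLin bbar bbar (LinearMap.toMatrix bbar bbar F) :=
      (Matrix.toLin_toMatrix bbar bbar F).symm
    rw [e1, hG0, hT, ← Matrix.toLin_mul_apply, ← Matrix.toLin_mul_apply, h]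
  have hGG : ∀ v, G0 (G0' v) = v := by
    intro v
    rw [hG0, hG0', ← Matrix.toLin_mul_apply, hg, Matrix.toLin_one]
    rfl
  have hT0 : T (bbar 0) = x • bbar 0 := by
    rw [hT, Matrix.toLin_self, Fin.sum_univ_two]
    simp
  have hT1 : T (bbar 1) = u • bbar 0 + z • bbar 1 := by
    rw [hT, Matrix.toLin_self, Fin.sum_univ_two]
    simp
  refine ⟨?_, ?_⟩
  · rw [hFG, hT0, map_smul]
  · intro v
    set w := G0' v with hw
    have hv : v = G0 w := (hGG v).symm
    have hwsum : w = bbar.repr w 0 • bbar 0 + bbar.repr w 1 • bbar 1 := by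
      conv_lhs => rw [← bbar.sum_repr w, Fin.sum_univ_two]
    have e : F v - z • v =
        (bbar.repr w 0 * x + bbar.repr w 1 * u - z * bbar.repr w 0) • G0 (bbar 0) := by
      rw [hv, hFG]
      conv_lhs => rw [hwsum]
      simp only [map_add, map_smul, hT0, hT1]
      module
    rw [e]
    exact Submodule.smul_mem _ _ (Submodule.mem_span_singleton_self _)

end LinAlg

section Main

variable {k : Type} [Field k] (p : ℕ) [Fact p.Prime]

theorem part0_map_add_map (A0 A1 : M2 k) :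
    part0 (A0.map (inl : k → DualNumber k) + A1.map (inr : k → DualNumber k)) = A0 := by
  ext i j
  simp

theorem part1_map_add_map (A0 A1 : M2 k) :
    part1 (A0.map (inl : k → DualNumber k) + A1.map (inr : k → DualNumber k)) = A1 := by
  ext i j
  simp

/-- **WP6 (6a), endomorphism form.**  See the file header. -/
theorem exists_line_cocycle (h2 : (2 : k) ≠ 0) (hpk : (p : k) = 0)
    (ρbar : ResidualGaloisRep k) (ρ : GaloisRepAdic (DualNumber k))
    (c : GQ → Module.End k ρbar.V) (hc : IsLiftCocycle ρbar ρ c)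
    (hord : ρ.IsStrictOrdinaryAt p) (hdet : ρ.DetIsCyclotomic p)
    (P : ValuationSubring Qb) (hP : P.LiesOverPrime p) :
    ∃ (v0 : ρbar.V) (y : Module.End k ρbar.V), v0 ≠ 0 ∧ LinearMap.trace k ρbar.V y = 0 ∧
      ∀ σ ∈ P.decompositionSubgroup ℚ, ∀ a : ℕ, (∀ μ : Qb, μ ^ p = 1 → σ μ = μ ^ a) →
        ∃ z : k, z * z = 1 ∧ (σ ∈ P.inertiaSubgroupIn ℚ → z = 1) ∧
          ρbar.ρ σ v0 = ((a : k) * z) • v0 ∧
          (∀ v, ρbar.ρ σ v - z • v ∈ Submodule.span k {v0}) ∧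
          (c σ + ρbar.ρ σ * y * ρbar.ρ σ⁻¹ - y) v0 = 0 ∧
          ∀ v, (c σ + ρbar.ρ σ * y * ρbar.ρ σ⁻¹ - y) v ∈ Submodule.span k {v0} := by
  obtain ⟨bbar, b, hmat⟩ := hc
  obtain ⟨g0, g0', Y, hgg', hg'g, hYtr, hmain⟩ :=
    exists_conj_cocycle p h2 hpk ρ hord hdet P hP b
  have hp0 : ∀ σ, part0 (matrixOf ρ b σ) = LinearMap.toMatrix bbar bbar (ρbar.ρ σ) := by
    intro σ
    rw [matrixOf_apply, hmat σ, part0_map_add_map]
  have hp1 : ∀ σ, part1 (matrixOf ρ b σ) =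
      LinearMap.toMatrix bbar bbar (c σ) * LinearMap.toMatrix bbar bbar (ρbar.ρ σ) := by
    intro σ
    rw [matrixOf_apply, hmat σ, part1_map_add_map, LinearMap.toMatrix_mul]
  refine ⟨Matrix.toLin bbar bbar g0 (bbar 0), Matrix.toLin bbar bbar Y, ?_, ?_, ?_⟩
  · intro h0
    have h1 : Matrix.toLin bbar bbar g0' (Matrix.toLin bbar bbar g0 (bbar 0)) = bbar 0 := by
      rw [← Matrix.toLin_mul_apply, hg'g, Matrix.toLin_one]
      rfl
    rw [h0, map_zero] at h1
    exact bbar.ne_zero 0 h1.symm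
  · rw [LinearMap.trace_eq_matrix_trace k bbar, LinearMap.toMatrix_toLin, hYtr]
  intro σ hσ a ha
  obtain ⟨z, u0, hzz, hzI, hR0, hC⟩ := hmain σ hσ a ha
  refine ⟨z, hzz, hzI, ?_⟩
  have hA : LinearMap.toMatrix bbar bbar (ρbar.ρ σ) * g0 = g0 * !![(a : k) * z, u0; 0, z] := by
    rw [← hR0, hp0, ← mul_assoc, ← mul_assoc, hgg', one_mul]
  obtain ⟨h1, h2'⟩ := apply_of_mul_eq bbar (ρbar.ρ σ) g0 g0' hgg' _ _ _ hA
  refine ⟨h1, h2', ?_⟩
  obtain ⟨w, hw⟩ := hC (LinearMap.toMatrix bbar bbar (c σ)) (by rw [hp1, hp0])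
  have hM : LinearMap.toMatrix bbar bbar
      (c σ + ρbar.ρ σ * Matrix.toLin bbar bbar Y * ρbar.ρ σ⁻¹ - Matrix.toLin bbar bbar Y) * g0 =
      g0 * !![0, w; 0, 0] := by
    rw [← hw, map_sub, map_add, LinearMap.toMatrix_mul, LinearMap.toMatrix_mul,
      LinearMap.toMatrix_toLin, hp0, hp0, ← mul_assoc, ← mul_assoc, hgg', one_mul]
  obtain ⟨h3, h4⟩ := apply_of_mul_eq bbar _ g0 g0' hgg' _ _ _ hM
  refine ⟨?_, ?_⟩
  · rw [h3, zero_smul]
  · intro v
    have := h4 v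
    rwa [zero_smul, sub_zero] at this

end Main

end Fermat.Agent.TW.OrdLocal.OrdEnd97
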