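/-
helper97 (TW / WP6, part 6a, fourth file): **the ordinary line of `ρbar` at `P ∣ p` is unique**, and
the structure of `W⁰ = Hom(V/L, L) ⊆ ad⁰ ρbar` as a module over the decomposition group.

* `IsOrdVec p ρbar P v₀` : `v₀ ≠ 0` spans a line on which `D_P` acts by `a z`, with `z` on the
  quotient, `z² = 1`, `z = 1` on inertia (`a` = exponent of the mod `p` cyclotomic character).
  This is what `OrdEnd97.exists_line_cocycle` produces.
* `span_eq_of_isOrdVec` : two such vectors span the same line (`p` odd; uses an inertia element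
  with cyclotomic exponent `2`, `Lib/InertiaCyclo69`).
* `W0 v₀` : the `k`-subspace `{m | m v₀ = 0 ∧ m V ⊆ k v₀}` of `End_k V`.
* `trace_eq_zero_of_mem_W0`, `conj_eq_smul_of_mem_W0` (`D_P` acts on `W0` through the cyclotomic
  character: `W⁰ ≅ k(ε̄)`), `eq_zero_of_mem_W0_of_fixed` (`H⁰(I_P, W⁰) = 0`),
  `exists_relInv` (`H⁰(D_P, ad⁰/W⁰) ≠ 0`), `exists_gen_W0` (`W⁰` is a line).
-/
import Mathlib
import Fermat.Agent.Lib.InertiaCyclo69
import Fermat.Agent.TW.OrdLocal.OrdEnd97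

set_option autoImplicit false

namespace Fermat.Agent.TW.OrdLocal.OrdLine97

open Fermat.Agent.S53 (GQ M2)

local notation "Qb" => AlgebraicClosure ℚ

section LinAlg

variable {k V : Type} [Field k] [AddCommGroup V] [Module k V]

/-- `W⁰(v₀) = {m ∈ End V | m v₀ = 0, m V ⊆ k v₀}`. -/
def W0 (v0 : V) : Submodule k (Module.End k V) where
  carrier := {m | m v0 = 0 ∧ ∀ v, m v ∈ Submodule.span k {v0}}
  add_mem' := by
    rintro m m' ⟨h1, h2⟩ ⟨h1', h2'⟩
    refine ⟨?_, fun v => ?_⟩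
    · rw [LinearMap.add_apply, h1, h1', add_zero]
    · rw [LinearMap.add_apply]
      exact Submodule.add_mem _ (h2 v) (h2' v)
  zero_mem' := ⟨rfl, fun v => Submodule.zero_mem _⟩
  smul_mem' := by
    rintro t m ⟨h1, h2⟩
    refine ⟨?_, fun v => ?_⟩
    · rw [LinearMap.smul_apply, h1, smul_zero]
    · rw [LinearMap.smul_apply]
      exact Submodule.smul_mem _ _ (h2 v)

theorem mem_W0_iff {v0 : V} {m : Module.End k V} :
    m ∈ W0 v0 ↔ m v0 = 0 ∧ ∀ v, m v ∈ Submodule.span k {v0} := Iff.rfl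

/-- `W0` only depends on the line. -/
theorem W0_eq_of_span_eq {v0 v0' : V} (h : Submodule.span k {v0} = Submodule.span k {v0'}) :
    W0 (k := k) v0 = W0 v0' := by
  have key : ∀ {w w' : V}, Submodule.span k {w} = Submodule.span k {w'} →
      W0 (k := k) w ≤ W0 w' := by
    intro w w' hww' m hm
    obtain ⟨h1, h2⟩ := hm
    refine ⟨?_, fun v => hww' ▸ h2 v⟩
    have hw' : w' ∈ Submodule.span k {w} := by
      rw [hww']
      exact Submodule.mem_span_singleton_self _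
    obtain ⟨t, rfl⟩ := Submodule.mem_span_singleton.mp hw'
    rw [map_smul, h1, smul_zero]
  exact le_antisymm (key h) (key h.symm)

variable (hV : Module.finrank k V = 2)
include hV

/-- Extend a nonzero vector of a plane to a basis. -/
theorem exists_basis_zero_eq {v0 : V} (hv0 : v0 ≠ 0) :
    ∃ bb : Module.Basis (Fin 2) k V, bb 0 = v0 := by
  have : Module.Finite k V := Module.finite_of_finrank_eq_succ hV
  obtain ⟨v1, hli⟩ := exists_linearIndependent_pair_of_one_lt_finrank (by rw [hV]; norm_num) hv0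
  refine ⟨basisOfLinearIndependentOfCardEqFinrank hli (by rw [hV]; rfl), ?_⟩
  rw [coe_basisOfLinearIndependentOfCardEqFinrank]
  rfl

omit hV in
/-- The matrix of an endomorphism stabilising the line spanned by `bb 0`. -/
theorem toMatrix_eq_of_triangular' (bb : Module.Basis (Fin 2) k V) (F : Module.End k V) (x z : k)
    (hx : F (bb 0) = x • bb 0) (hz : F (bb 1) - z • bb 1 ∈ Submodule.span k {bb 0}) :
    ∃ u : k, LinearMap.toMatrix bb bb F = !![x, u; 0, z] := by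
  obtain ⟨u, hu⟩ := Submodule.mem_span_singleton.mp hz
  refine ⟨u, ?_⟩
  have h1 : F (bb 1) = u • bb 0 + z • bb 1 := by rw [hu]; abel
  refine Matrix.ext fun i j => ?_
  rw [LinearMap.toMatrix_apply]
  fin_cases j
  · show bb.repr (F (bb 0)) i = _
    rw [hx, map_smul, Module.Basis.repr_self]
    fin_cases i <;> simp
  · show bb.repr (F (bb 1)) i = _
    rw [h1, map_add, map_smul, map_smul, Module.Basis.repr_self, Module.Basis.repr_self]
    fin_cases i <;> simp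

omit hV in
/-- Membership in `W0 (bb 0)` in matrix terms. -/
theorem mem_W0_iff_toMatrix (bb : Module.Basis (Fin 2) k V) (m : Module.End k V) :
    m ∈ W0 (bb 0) ↔ ∃ w : k, LinearMap.toMatrix bb bb m = !![0, w; 0, 0] := by
  constructor
  · rintro ⟨h1, h2⟩
    have hx : m (bb 0) = (0 : k) • bb 0 := by rw [h1, zero_smul]
    have hz : m (bb 1) - (0 : k) • bb 1 ∈ Submodule.span k {bb 0} := by
      rw [zero_smul, sub_zero]
      exact h2 _
    exact toMatrix_eq_of_triangular' bb m 0 0 hx hz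
  · rintro ⟨w, hw⟩
    have hm : m = Matrix.toLin bb bb (!![0, w; 0, 0] : M2 k) := by
      rw [← hw, Matrix.toLin_toMatrix]
    have h0 : m (bb 0) = 0 := by
      rw [hm, Matrix.toLin_self, Fin.sum_univ_two]
      simp
    have h1 : m (bb 1) = w • bb 0 := by
      rw [hm, Matrix.toLin_self, Fin.sum_univ_two]
      simp
    refine ⟨h0, fun v => ?_⟩
    have hv : v = bb.repr v 0 • bb 0 + bb.repr v 1 • bb 1 := by
      conv_lhs => rw [← bb.sum_repr v, Fin.sum_univ_two]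
    rw [hv, map_add, map_smul, map_smul, h0, h1, smul_zero, zero_add, smul_smul]
    exact Submodule.smul_mem _ _ (Submodule.mem_span_singleton_self _)

omit hV in
/-- Elements of `W0` have trace zero. -/
theorem trace_eq_zero_of_mem_W0' (bb : Module.Basis (Fin 2) k V) {m : Module.End k V}
    (hm : m ∈ W0 (bb 0)) : LinearMap.trace k V m = 0 := by
  obtain ⟨w, hw⟩ := (mem_W0_iff_toMatrix bb m).mp hm
  rw [LinearMap.trace_eq_matrix_trace k bb, hw, Matrix.trace_fin_two_of, add_zero]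

/-- Elements of `W0` have trace zero. -/
theorem trace_eq_zero_of_mem_W0 {v0 : V} (hv0 : v0 ≠ 0) {m : Module.End k V}
    (hm : m ∈ W0 v0) : LinearMap.trace k V m = 0 := by
  obtain ⟨bb, rfl⟩ := exists_basis_zero_eq hV hv0
  exact trace_eq_zero_of_mem_W0' bb hm

/-- `W0` is the line spanned by some `e ≠ 0`. -/
theorem exists_gen_W0 {v0 : V} (hv0 : v0 ≠ 0) :
    ∃ e : Module.End k V, e ≠ 0 ∧ W0 v0 = Submodule.span k {e} := by
  obtain ⟨bb, rfl⟩ := exists_basis_zero_eq hV hv0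
  refine ⟨Matrix.toLin bb bb (!![0, 1; 0, 0] : M2 k), ?_, ?_⟩
  · intro h
    have := congrArg (LinearMap.toMatrix bb bb) h
    rw [LinearMap.toMatrix_toLin, map_zero] at this
    have h01 := congrFun (congrFun this 0) 1
    simp at h01
  · ext m
    rw [mem_W0_iff_toMatrix, Submodule.mem_span_singleton]
    constructor
    · rintro ⟨w, hw⟩
      refine ⟨w, ?_⟩
      apply (LinearMap.toMatrix bb bb).injective
      rw [map_smul, LinearMap.toMatrix_toLin, hw]
      ext i j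
      fin_cases i <;> fin_cases j <;> simp
    · rintro ⟨w, rfl⟩
      refine ⟨w, ?_⟩
      rw [map_smul, LinearMap.toMatrix_toLin]
      ext i j
      fin_cases i <;> fin_cases j <;> simp

/-- Conjugating `W0` by a pair of mutually inverse endomorphisms stabilising the line: the action is
through the ratio of the two diagonal characters. -/
theorem conj_mem_W0 {v0 : V} (hv0 : v0 ≠ 0) (F F' : Module.End k V)
    (x z x' z' : k) (hx : F v0 = x • v0) (hz : ∀ v, F v - z • v ∈ Submodule.span k {v0})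
    (hx' : F' v0 = x' • v0) (hz' : ∀ v, F' v - z' • v ∈ Submodule.span k {v0})
    {m : Module.End k V} (hm : m ∈ W0 v0) : F * m * F' = (x * z') • m := by
  obtain ⟨bb, rfl⟩ := exists_basis_zero_eq hV hv0
  obtain ⟨u, hF⟩ := toMatrix_eq_of_triangular' bb F x z hx (hz _)
  obtain ⟨u', hF'⟩ := toMatrix_eq_of_triangular' bb F' x' z' hx' (hz' _)
  obtain ⟨w, hw⟩ := (mem_W0_iff_toMatrix bb m).mp hm
  apply (LinearMap.toMatrix bb bb).injective
  rw [LinearMap.toMatrix_mul, LinearMap.toMatrix_mul, map_smul, hF, hF', hw]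
  ext i j
  fin_cases i <;> fin_cases j <;> simp [Matrix.mul_apply, Fin.sum_univ_two]
  ring

/-- The class of `diag(1,-1)` in `ad⁰/W⁰` is invariant. -/
theorem exists_relInv' {v0 : V} (hv0 : v0 ≠ 0) :
    ∃ m0 : Module.End k V, LinearMap.trace k V m0 = 0 ∧ m0 ∉ W0 v0 ∧
      ∀ (F F' : Module.End k V), F * F' = 1 → ∀ (x z x' z' : k), F v0 = x • v0 →
        (∀ v, F v - z • v ∈ Submodule.span k {v0}) → F' v0 = x' • v0 →
        (∀ v, F' v - z' • v ∈ Submodule.span k {v0}) → F * m0 * F' - m0 ∈ W0 v0 := by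
  obtain ⟨bb, rfl⟩ := exists_basis_zero_eq hV hv0
  refine ⟨Matrix.toLin bb bb (!![1, 0; 0, -1] : M2 k), ?_, ?_, ?_⟩
  · rw [LinearMap.trace_eq_matrix_trace k bb, LinearMap.toMatrix_toLin, Matrix.trace_fin_two_of]
    ring
  · intro h
    obtain ⟨w, hw⟩ := (mem_W0_iff_toMatrix bb _).mp h
    rw [LinearMap.toMatrix_toLin] at hw
    have h00 := congrFun (congrFun hw 0) 0
    simp at h00
  · intro F F' hFF' x z x' z' hx hz hx' hz'
    obtain ⟨u, hF⟩ := toMatrix_eq_of_triangular' bb F x z hx (hz _)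
    obtain ⟨u', hF'⟩ := toMatrix_eq_of_triangular' bb F' x' z' hx' (hz' _)
    have hprod : (!![x, u; 0, z] : M2 k) * !![x', u'; 0, z'] = 1 := by
      rw [← hF, ← hF', ← LinearMap.toMatrix_mul, hFF', LinearMap.toMatrix_one]
    have h00 : x * x' = 1 := by
      have := congrFun (congrFun hprod 0) 0
      simpa [Matrix.mul_apply, Fin.sum_univ_two] using this
    have h11 : z * z' = 1 := by
      have := congrFun (congrFun hprod 1) 1
      simpa [Matrix.mul_apply, Fin.sum_univ_two] using this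
    rw [mem_W0_iff_toMatrix]
    refine ⟨x * u' - u * z', ?_⟩
    rw [map_sub, LinearMap.toMatrix_mul, LinearMap.toMatrix_mul, LinearMap.toMatrix_toLin, hF, hF']
    ext i j
    fin_cases i <;> fin_cases j <;> simp [Matrix.mul_apply, Fin.sum_univ_two]
    · linear_combination h00
    · ring
    · linear_combination (-1 : k) * h11

end LinAlg

section Galois

variable {k : Type} [Field k] (p : ℕ) [Fact p.Prime]

/-- `v₀` spans an ordinary line of `ρbar` at `P`: the decomposition group acts on `k v₀` by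
`a z` and on the quotient by `z`, with `z² = 1`, `z = 1` on inertia, where `a` is (any) exponent
of the mod `p` cyclotomic character of `σ`. -/
def IsOrdVec (ρbar : ResidualGaloisRep k) (P : ValuationSubring Qb) (v0 : ρbar.V) : Prop :=
  v0 ≠ 0 ∧ ∀ σ ∈ P.decompositionSubgroup ℚ, ∀ a : ℕ, (∀ μ : Qb, μ ^ p = 1 → σ μ = μ ^ a) →
    ∃ z : k, z * z = 1 ∧ (σ ∈ P.inertiaSubgroupIn ℚ → z = 1) ∧
      ρbar.ρ σ v0 = ((a : k) * z) • v0 ∧ ∀ v, ρbar.ρ σ v - z • v ∈ Submodule.span k {v0}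

/-- Restatement of `OrdEnd97.exists_line_cocycle` with `IsOrdVec` and `W0`. -/
theorem exists_isOrdVec_cocycle (h2 : (2 : k) ≠ 0) (hpk : (p : k) = 0)
    (ρbar : ResidualGaloisRep k) (ρ : GaloisRepAdic (DualNumber k))
    (c : GQ → Module.End k ρbar.V) (hc : Fermat.Agent.TW.Spec.Defs52.IsLiftCocycle ρbar ρ c)
    (hord : ρ.IsStrictOrdinaryAt p) (hdet : ρ.DetIsCyclotomic p)
    (P : ValuationSubring Qb) (hP : P.LiesOverPrime p) :
    ∃ (v0 : ρbar.V) (y : Module.End k ρbar.V), IsOrdVec p ρbar P v0 ∧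
      LinearMap.trace k ρbar.V y = 0 ∧
      ∀ σ ∈ P.decompositionSubgroup ℚ, c σ + ρbar.ρ σ * y * ρbar.ρ σ⁻¹ - y ∈ W0 v0 := by
  obtain ⟨v0, y, hv0, hy, h⟩ :=
    Fermat.Agent.TW.OrdLocal.OrdEnd97.exists_line_cocycle p h2 hpk ρbar ρ c hc hord hdet P hP
  refine ⟨v0, y, ⟨hv0, fun σ hσ a ha => ?_⟩, hy, fun σ hσ => ?_⟩
  · obtain ⟨z, hzz, hzI, h1, h2', -, -⟩ := h σ hσ a ha
    exact ⟨z, hzz, hzI, h1, h2'⟩
  · obtain ⟨z, -, -, -, -, h3, h4⟩ := h σ hσ _
      (fun μ hμ => Fermat.Agent.TW.OrdLocal.StrictLift97.apply_eq_pow_cycloExp p σ hμ)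
    exact ⟨h3, h4⟩

/-- **Uniqueness of the ordinary line** (`p` odd). -/
theorem span_eq_of_isOrdVec (hp2 : p ≠ 2) (ρbar : ResidualGaloisRep k)
    (P : ValuationSubring Qb) (hP : P.LiesOverPrime p) {v0 v0' : ρbar.V}
    (h : IsOrdVec p ρbar P v0) (h' : IsOrdVec p ρbar P v0') :
    Submodule.span k {v0} = Submodule.span k {v0'} := by
  have hcop : Nat.Coprime 2 p := by
    rw [Nat.coprime_comm, Nat.Prime.coprime_iff_not_dvd (Fact.out : p.Prime)]
    intro hdvd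
    exact hp2 ((Nat.prime_dvd_prime_iff_eq (Fact.out : p.Prime) Nat.prime_two).mp hdvd)
  obtain ⟨σ, hσI, hσ⟩ := Fermat.Agent.Lib.InertiaCyclo69.exists_mem_inertia_forall_apply_eq_pow
    (Fact.out : p.Prime) hP 1 hcop
  have hσ' : ∀ μ : Qb, μ ^ p = 1 → σ μ = μ ^ 2 := fun μ hμ => hσ μ (by simpa using hμ)
  have hσD : σ ∈ P.decompositionSubgroup ℚ := by
    obtain ⟨τ, -, rfl⟩ := Subgroup.mem_map.mp hσI
    exact τ.2
  obtain ⟨z, -, hzI, -, hz⟩ := h.2 σ hσD 2 hσ'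
  obtain ⟨z', -, hzI', hx', -⟩ := h'.2 σ hσD 2 hσ'
  have hz1 : z = 1 := hzI hσI
  have hz1' : z' = 1 := hzI' hσI
  -- `v0' = (ρbar σ - 1) v0' ∈ k v0`
  have hmem : v0' ∈ Submodule.span k {v0} := by
    have := hz v0'
    rw [hx', hz1, hz1', mul_one, one_smul] at this
    have e : ((2 : ℕ) : k) • v0' - v0' = v0' := by
      rw [Nat.cast_ofNat, two_smul]
      abel
    rwa [e] at this
  obtain ⟨t, ht⟩ := Submodule.mem_span_singleton.mp hmem
  have ht0 : t ≠ 0 := by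
    rintro rfl
    rw [zero_smul] at ht
    exact h'.1 ht.symm
  rw [← ht]
  exact (Submodule.span_singleton_smul_eq (IsUnit.mk0 t ht0) v0).symm

/-- `D_P` acts on `W⁰` through the mod `p` cyclotomic character: `W⁰ ≅ k(ε̄)`. -/
theorem conj_eq_smul_of_mem_W0 (ρbar : ResidualGaloisRep k) (P : ValuationSubring Qb)
    {v0 : ρbar.V} (h : IsOrdVec p ρbar P v0) {σ : GQ} (hσ : σ ∈ P.decompositionSubgroup ℚ)
    {a : ℕ} (ha : ∀ μ : Qb, μ ^ p = 1 → σ μ = μ ^ a) {m : Module.End k ρbar.V}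
    (hm : m ∈ W0 v0) : ρbar.ρ σ * m * ρbar.ρ σ⁻¹ = (a : k) • m := by
  obtain ⟨z, hzz, -, hx, hz⟩ := h.2 σ hσ a ha
  have hσi : σ⁻¹ ∈ P.decompositionSubgroup ℚ := inv_mem hσ
  obtain ⟨z', -, -, hx', hz'⟩ := h.2 σ⁻¹ hσi _
    (fun μ hμ => Fermat.Agent.TW.OrdLocal.StrictLift97.apply_eq_pow_cycloExp p σ⁻¹ hμ)
  have key := conj_mem_W0 ρbar.finrank_eq h.1 (ρbar.ρ σ) (ρbar.ρ σ⁻¹) _ z _ z' hx hz hx' hz' hm
  -- `z z' = 1`: compare the actions on the quotient
  have hzz' : z * z' = 1 := by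
    obtain ⟨bb, hbb⟩ := exists_basis_zero_eq ρbar.finrank_eq h.1
    subst hbb
    obtain ⟨u, hF⟩ := toMatrix_eq_of_triangular' bb (ρbar.ρ σ) _ z hx (hz _)
    obtain ⟨u', hF'⟩ := toMatrix_eq_of_triangular' bb (ρbar.ρ σ⁻¹) _ z' hx' (hz' _)
    have hprod : LinearMap.toMatrix bb bb (ρbar.ρ σ) * LinearMap.toMatrix bb bb (ρbar.ρ σ⁻¹) = 1 := by
      rw [← LinearMap.toMatrix_mul, ← map_mul, mul_inv_cancel, map_one, LinearMap.toMatrix_one]
    rw [hF, hF'] at hprod
    have := congrFun (congrFun hprod 1) 1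
    simpa [Matrix.mul_apply, Fin.sum_univ_two] using this
  rw [key, mul_assoc, hzz', mul_one]

/-- `H⁰(I_P, W⁰) = 0` for `p` odd. -/
theorem eq_zero_of_mem_W0_of_fixed (hp2 : p ≠ 2) (ρbar : ResidualGaloisRep k)
    (P : ValuationSubring Qb) (hP : P.LiesOverPrime p) {v0 : ρbar.V} (h : IsOrdVec p ρbar P v0)
    {m : Module.End k ρbar.V} (hm : m ∈ W0 v0)
    (hfix : ∀ σ ∈ P.inertiaSubgroupIn ℚ, ρbar.ρ σ * m * ρbar.ρ σ⁻¹ = m) : m = 0 := by
  have hcop : Nat.Coprime 2 p := by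
    rw [Nat.coprime_comm, Nat.Prime.coprime_iff_not_dvd (Fact.out : p.Prime)]
    intro hdvd
    exact hp2 ((Nat.prime_dvd_prime_iff_eq (Fact.out : p.Prime) Nat.prime_two).mp hdvd)
  obtain ⟨σ, hσI, hσ⟩ := Fermat.Agent.Lib.InertiaCyclo69.exists_mem_inertia_forall_apply_eq_pow
    (Fact.out : p.Prime) hP 1 hcop
  have hσ' : ∀ μ : Qb, μ ^ p = 1 → σ μ = μ ^ 2 := fun μ hμ => hσ μ (by simpa using hμ)
  have hσD : σ ∈ P.decompositionSubgroup ℚ := by
    obtain ⟨τ, -, rfl⟩ := Subgroup.mem_map.mp hσI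
    exact τ.2
  have h1 := conj_eq_smul_of_mem_W0 p ρbar P h hσD hσ' hm
  rw [hfix σ hσI, Nat.cast_ofNat, two_smul] at h1
  have : m + m = m + 0 := by rw [add_zero]; exact h1.symm
  exact (add_left_cancel this)

/-- `H⁰(D_P, ad⁰/W⁰) ≠ 0`: a trace-zero `m₀ ∉ W⁰` with `σ m₀ σ⁻¹ - m₀ ∈ W⁰` for `σ ∈ D_P`. -/
theorem exists_relInv (ρbar : ResidualGaloisRep k) (P : ValuationSubring Qb)
    {v0 : ρbar.V} (h : IsOrdVec p ρbar P v0) :
    ∃ m0 : Module.End k ρbar.V, LinearMap.trace k ρbar.V m0 = 0 ∧ m0 ∉ W0 v0 ∧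
      ∀ σ ∈ P.decompositionSubgroup ℚ, ρbar.ρ σ * m0 * ρbar.ρ σ⁻¹ - m0 ∈ W0 v0 := by
  obtain ⟨m0, htr, hnot, hall⟩ := exists_relInv' (k := k) ρbar.finrank_eq h.1
  refine ⟨m0, htr, hnot, fun σ hσ => ?_⟩
  obtain ⟨z, -, -, hx, hz⟩ := h.2 σ hσ _
    (fun μ hμ => Fermat.Agent.TW.OrdLocal.StrictLift97.apply_eq_pow_cycloExp p σ hμ)
  obtain ⟨z', -, -, hx', hz'⟩ := h.2 σ⁻¹ (inv_mem hσ) _
    (fun μ hμ => Fermat.Agent.TW.OrdLocal.StrictLift97.apply_eq_pow_cycloExp p σ⁻¹ hμ)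
  refine hall (ρbar.ρ σ) (ρbar.ρ σ⁻¹) ?_ _ z _ z' hx hz hx' hz'
  rw [← map_mul, mul_inv_cancel, map_one]

end Galois

end Fermat.Agent.TW.OrdLocal.OrdLine97
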